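import Mathlib
import Fermat.Agent.LT.Descent.Geom.Local.ProRoot

set_option autoImplicit false

/-!
# Box groups over a completion

The radii are exponents of the valuation: `e1` for the modulus of the character, `eA` and `eH` for
the two diagonal boxes, `e3` for `3` and `e2` for the factor of the lower left entry.
-/

noncomputable section

open NumberField IsDedekindDomain WithZero
open FermatAgent.LT (GLv)

namespace FermatAgent.LTG.Fixed

variable {L : Type*} [Field L] [NumberField L] {w : HeightOneSpectrum (𝓞 L)}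

local notation "Lw" => HeightOneSpectrum.adicCompletion L w
local notation "M₂w" => Matrix (Fin 2) (Fin 2) (HeightOneSpectrum.adicCompletion L w)

/-- Valuation at most `exp (-n)`. -/
def Small (n : ℕ) (x : Lw) : Prop := Valued.v x ≤ exp (-(n : ℤ))

theorem small_zero_iff {x : Lw} : Small 0 x ↔ Valued.v x ≤ 1 := by simp [Small]

@[simp] theorem small_zero' (n : ℕ) : Small n (0 : Lw) := by simp [Small]

theorem small_one : Small 0 (1 : Lw) := by simp [Small]

theorem Small.anti {m n : ℕ} (h : m ≤ n) {x : Lw} (hx : Small n x) : Small m x :=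
  hx.trans (exp_le_exp.mpr (by omega))

theorem Small.add {n : ℕ} {x y : Lw} (hx : Small n x) (hy : Small n y) : Small n (x + y) :=
  (Valuation.map_add _ _ _).trans (max_le hx hy)

theorem Small.neg {n : ℕ} {x : Lw} (hx : Small n x) : Small n (-x) := by
  rw [Small, Valuation.map_neg]; exact hx

theorem Small.sub {n : ℕ} {x y : Lw} (hx : Small n x) (hy : Small n y) : Small n (x - y) :=
  (Valuation.map_sub _ _ _).trans (max_le hx hy)

theorem Small.mul {m n : ℕ} {x y : Lw} (hx : Small m x) (hy : Small n y) :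
    Small (m + n) (x * y) := by
  rw [Small, map_mul, show (-((m + n : ℕ) : ℤ)) = -(m : ℤ) + -(n : ℤ) by push_cast; ring, exp_add]
  exact mul_le_mul' hx hy

theorem Small.mul_le {k m n : ℕ} {x y : Lw} (hx : Small m x) (hy : Small n y) (h : k ≤ m + n) :
    Small k (x * y) :=
  (hx.mul hy).anti h

/-- The elements of valuation at most `exp (-n)`. -/
def smallSub (w : HeightOneSpectrum (𝓞 L)) (n : ℕ) : AddSubgroup (w.adicCompletion L) where
  carrier := {x | Small n x}
  zero_mem' := small_zero' n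
  add_mem' := Small.add
  neg_mem' := Small.neg

@[simp] theorem mem_smallSub {n : ℕ} {x : Lw} : x ∈ smallSub w n ↔ Small n x := Iff.rfl

/-- The numerical data of the boxes at a place. -/
structure Radii (w : HeightOneSpectrum (𝓞 L)) where
  /-- the factor of the lower left entry -/
  M : w.adicCompletion L
  /-- the exponent of the modulus of the character -/
  e1 : ℕ
  /-- the exponent of the diagonal box -/
  eA : ℕ
  /-- the exponent of the larger diagonal box -/
  eH : ℕ
  /-- the exponent of `3` -/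
  e3 : ℕ
  /-- the exponent of the lower left entry -/
  e2 : ℕ
  val_M : Valued.v M = exp (-(e2 : ℤ))
  val_three : Valued.v (3 : w.adicCompletion L) = exp (-(e3 : ℤ))
  one_le_eH : 1 ≤ eH
  eH_add_e3 : eH + e3 ≤ eA
  e1_le : e1 ≤ 2 * eH
  eA_le_e1 : eA ≤ e1
  e3_le_eH : e3 ≤ eH
  e1_add : e1 + 2 * e3 ≤ 2 * eA
  e1_le_e2 : e1 + 2 * e3 ≤ e2
  two_eA_le : 2 * eA ≤ e2
  two_e3_le : 2 * e3 ≤ eA
  two_e3_le_eH : 2 * e3 ≤ eH

namespace Radii

variable (r : Radii w)

theorem e3_lt_eA : r.e3 < r.eA := by have := r.eH_add_e3; have := r.one_le_eH; omega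

theorem small_M : Small r.e2 r.M := r.val_M.le

theorem M_ne_zero : r.M ≠ 0 := fun h => by
  have := r.val_M
  rw [h, map_zero] at this
  exact exp_ne_zero this.symm

include r in
theorem three_ne_zero : (3 : Lw) ≠ 0 := fun h => by
  have := r.val_three
  rw [h, map_zero] at this
  exact exp_ne_zero this.symm

theorem small_three : Small r.e3 (3 : Lw) := r.val_three.le

/-- Division by three. -/
theorem small_div_three {n m : ℕ} {x : Lw} (hx : Small m x) (h : n + r.e3 ≤ m) :
    Small n (x / 3) := by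
  rw [Small, map_div₀, r.val_three, div_le_iff₀ (zero_lt_iff.mpr exp_ne_zero), ← exp_add]
  exact hx.trans (exp_le_exp.mpr (by omega))

theorem small_div_three_iff {n : ℕ} {x : Lw} : Small n (x / 3) ↔ Small (n + r.e3) x := by
  refine ⟨fun h => ?_, fun h => r.small_div_three h le_rfl⟩
  have := h.mul r.small_three
  rwa [div_mul_cancel₀ _ r.three_ne_zero] at this

theorem small_div_M {n m : ℕ} {x : Lw} (hx : Small m x) (h : n + r.e2 ≤ m) :
    Small n (x / r.M) := by
  rw [Small, map_div₀, r.val_M, div_le_iff₀ (zero_lt_iff.mpr exp_ne_zero), ← exp_add]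
  exact hx.trans (exp_le_exp.mpr (by omega))

/-- The conditions on the two boxes. -/
structure IsBox (A B C : AddSubgroup (w.adicCompletion L)) : Prop where
  small_A : ∀ a ∈ A, Small r.eH a
  small_B : ∀ b ∈ B, Small 0 b
  mem_A : ∀ x, Small r.e1 x → x ∈ A
  small_C : ∀ c ∈ C, Small 0 c
  mem_B : ∀ x, Small r.e3 x → x ∈ B
  mem_C : ∀ x, Small (2 * r.e3) x → x ∈ C

/-- A matrix of parameters in the two boxes. -/
def InBox (A B C : AddSubgroup (w.adicCompletion L)) (X : M₂w) : Prop :=
  X 0 0 ∈ A ∧ X 0 1 ∈ B ∧ (∃ c ∈ C, X 1 0 = r.M * c) ∧ X 1 1 ∈ A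

/-- The widest box. -/
def IsWide (X : M₂w) : Prop := r.InBox (smallSub w r.eH) (smallSub w 0) (smallSub w 0) X

/-- The box contained in all boxes. -/
def IsTiny (X : M₂w) : Prop := r.InBox (smallSub w r.e1) (smallSub w r.eH) (smallSub w r.eH) X

variable {r} {A B C : AddSubgroup (w.adicCompletion L)}

theorem InBox.add {X Y : M₂w} (hX : r.InBox A B C X) (hY : r.InBox A B C Y) :
    r.InBox A B C (X + Y) := by
  obtain ⟨a, b, ⟨c, hc, ec⟩, d⟩ := hX
  obtain ⟨a', b', ⟨c', hc', ec'⟩, d'⟩ := hY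
  exact ⟨add_mem a a', add_mem b b', ⟨c + c', add_mem hc hc', by
    rw [Matrix.add_apply, ec, ec', mul_add]⟩, add_mem d d'⟩

theorem InBox.neg {X : M₂w} (hX : r.InBox A B C X) : r.InBox A B C (-X) := by
  obtain ⟨a, b, ⟨c, hc, ec⟩, d⟩ := hX
  exact ⟨neg_mem a, neg_mem b, ⟨-c, neg_mem hc, by rw [Matrix.neg_apply, ec, mul_neg]⟩, neg_mem d⟩

theorem InBox.sub {X Y : M₂w} (hX : r.InBox A B C X) (hY : r.InBox A B C Y) :
    r.InBox A B C (X - Y) := by
  rw [sub_eq_add_neg]; exact hX.add hY.neg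

theorem inBox_zero : r.InBox A B C (0 : M₂w) :=
  ⟨zero_mem _, zero_mem _, ⟨0, zero_mem _, by simp⟩, zero_mem _⟩

theorem InBox.mono {A' B' C' : AddSubgroup (w.adicCompletion L)} (hA : A ≤ A')
    (hB : B ≤ B') (hC : C ≤ C')
    {X : M₂w} (hX : r.InBox A B C X) : r.InBox A' B' C' X := by
  obtain ⟨a, b, ⟨c, hc, ec⟩, d⟩ := hX
  exact ⟨hA a, hB b, ⟨c, hC hc, ec⟩, hA d⟩

theorem IsBox.isWide (hAB : r.IsBox A B C) {X : M₂w} (hX : r.InBox A B C X) : r.IsWide X :=
  hX.mono hAB.small_A hAB.small_B hAB.small_C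

theorem IsBox.of_tiny (hAB : r.IsBox A B C) {X : M₂w} (hX : r.IsTiny X) : r.InBox A B C X :=
  hX.mono hAB.mem_A (fun x hx => hAB.mem_B x (Small.anti r.e3_le_eH hx))
    fun x hx => hAB.mem_C x (Small.anti r.two_e3_le_eH hx)

theorem IsTiny.isWide {X : M₂w} (hX : r.IsTiny X) : r.IsWide X :=
  hX.mono (fun _ hx => Small.anti (by have := r.eA_le_e1; have := r.eH_add_e3; omega) hx)
    (fun _ hx => Small.anti (Nat.zero_le _) hx) fun _ hx => Small.anti (Nat.zero_le _) hx

/-- The product of two wide matrices is tiny. -/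
theorem IsWide.mul {X Y : M₂w} (hX : r.IsWide X) (hY : r.IsWide Y) : r.IsTiny (X * Y) := by
  obtain ⟨a, b, ⟨c, hc, ec⟩, d⟩ := hX
  obtain ⟨a', b', ⟨c', hc', ec'⟩, d'⟩ := hY
  simp only [mem_smallSub] at a b hc d a' b' hc' d'
  have h1 := r.e1_le
  have h2 := r.e1_le_e2
  refine ⟨?_, ?_, ⟨c * Y 0 0 + X 1 1 * c', ?_, ?_⟩, ?_⟩ <;>
    simp only [mem_smallSub, Matrix.mul_apply, Fin.sum_univ_two, ec, ec']
  · exact (a.mul_le a' (by omega)).add (b.mul_le (r.small_M.mul hc') (by omega))
  · exact (a.mul_le b' (by omega)).add (b.mul_le d' (by omega))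
  · exact (hc.mul_le a' (by omega)).add (d.mul_le hc' (by omega))
  · ring
  · exact ((r.small_M.mul hc).mul_le b' (by omega)).add (d.mul_le d' (by omega))

theorem IsWide.valued_det_one_add {X : M₂w} (hX : r.IsWide X) :
    Small r.eH ((1 + X).det - 1) := by
  obtain ⟨a, b, ⟨c, hc, ec⟩, d⟩ := hX
  simp only [mem_smallSub] at a b hc d
  rw [show (1 + X).det - 1 = X 0 0 + X 1 1 + X 0 0 * X 1 1 - X 0 1 * X 1 0 by
    simp [Matrix.det_fin_two]; ring, ec]
  exact ((a.add d).add (a.mul_le d (by omega))).sub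
    (b.mul_le (r.small_M.mul hc) (by have := r.two_eA_le; have := r.eH_add_e3; omega))

theorem IsWide.valued_det {X : M₂w} (hX : r.IsWide X) : Valued.v (1 + X).det = 1 := by
  refine (Valuation.map_eq_of_sub_lt _ ?_).trans (map_one Valued.v)
  rw [map_one]
  refine hX.valued_det_one_add.trans_lt ?_
  rw [← exp_zero, exp_lt_exp]
  have := r.one_le_eH
  omega

variable (r)

theorem inv_wide {g : GLv w} (hg : r.IsWide (g.val - 1)) : r.IsWide (g⁻¹.val - 1) := by
  have hdv := hg.valued_det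
  have hd := hg.valued_det_one_add
  rw [add_sub_cancel] at hdv hd
  obtain ⟨a, b, ⟨c, hc, ec⟩, d⟩ := hg
  simp only [mem_smallSub, Matrix.sub_apply, Matrix.one_apply_eq] at a b hc d
  have hne : g.val.det ≠ 0 := g.det_ne_zero
  have key : ∀ {n : ℕ} {x : Lw}, Small n x → Small n (g.val.det⁻¹ * x) := fun {n x} hx => by
    rw [Small, map_mul, map_inv₀, hdv, inv_one, one_mul]; exact hx
  have hdiag : ∀ {x : Lw}, Small r.eH (x - 1) → Small r.eH (g.val.det⁻¹ * x - 1) := fun {x} hx => by
    rw [show g.val.det⁻¹ * x - 1 = g.val.det⁻¹ * ((x - 1) - (g.val.det - 1)) by field_simp; ring]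
    exact key (hx.sub hd)
  rw [Matrix.one_apply_ne (by decide), sub_zero] at b
  rw [Matrix.sub_apply, Matrix.one_apply_ne (by decide), sub_zero] at ec
  refine ⟨?_, ?_, ⟨g.val.det⁻¹ * -c, key hc.neg, ?_⟩, ?_⟩ <;>
    simp only [mem_smallSub, Matrix.sub_apply, LT.CO.inv_val_fin_two, Matrix.smul_apply,
      smul_eq_mul]
  · simpa using hdiag d
  · simpa using (key b).neg
  · simp [ec]; ring
  · simpa using hdiag a

/-- The group of a pair of boxes. -/
def boxGrp (hAB : r.IsBox A B C) : Subgroup (GLv w) where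
  carrier := {g | r.InBox A B C (g.val - 1)}
  one_mem' := by
    simp only [Set.mem_ofPred_eq, Units.val_one, sub_self]
    exact inBox_zero
  mul_mem' {g h} hg hh := by
    simp only [Set.mem_ofPred_eq] at hg hh ⊢
    rw [Units.val_mul, show g.val * h.val - 1 =
      (g.val - 1) + (h.val - 1) + (g.val - 1) * (h.val - 1) by noncomm_ring]
    exact (hg.add hh).add (hAB.of_tiny ((hAB.isWide hg).mul (hAB.isWide hh)))
  inv_mem' {g} hg := by
    simp only [Set.mem_ofPred_eq] at hg ⊢
    have hw := hAB.isWide hg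
    have hi := r.inv_wide hw
    have h1 := hw.mul hi
    rw [show g⁻¹.val - 1 = -(g.val - 1) - (g.val - 1) * (g⁻¹.val - 1) by
      rw [mul_sub (g.val - 1), sub_mul, ← Units.val_mul, mul_inv_cancel, Units.val_one]
      noncomm_ring]
    exact hg.neg.sub (hAB.of_tiny h1)

variable {r}

theorem mem_boxGrp {hAB : r.IsBox A B C} {g : GLv w} :
    g ∈ r.boxGrp hAB ↔ r.InBox A B C (g.val - 1) := Iff.rfl

theorem exists_of_inBox (hAB : r.IsBox A B C) {X : M₂w} (hX : r.InBox A B C X) :
    ∃ g ∈ r.boxGrp hAB, g.val = 1 + X := by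
  have hd : (1 + X).det ≠ 0 := fun h => by
    have := (hAB.isWide hX).valued_det
    rw [h, map_zero] at this
    exact zero_ne_one this
  refine ⟨Matrix.GeneralLinearGroup.mkOfDetNeZero _ hd, ?_, rfl⟩
  show r.InBox A B C (1 + X - 1)
  rwa [add_sub_cancel_left]

/-- A wide element conjugates a box group into itself, up to tiny terms. -/
theorem conj_tiny {h : GLv w} (hh : r.IsWide (h.val - 1)) {X : M₂w} (hX : r.IsWide X) :
    r.IsTiny (h.val * X * h⁻¹.val - X) := by
  have hi := r.inv_wide hh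
  rw [show h.val * X * h⁻¹.val - X = ((h.val - 1) * X - X * (h.val - 1)) +
      ((h.val - 1) * X - X * (h.val - 1)) * (h⁻¹.val - 1) by
    rw [show (h.val - 1) * X - X * (h.val - 1) = h.val * X - X * h.val by noncomm_ring,
      mul_sub (h.val * X - X * h.val), mul_one, add_sub_cancel, sub_mul,
      mul_assoc X, ← Units.val_mul h h⁻¹, mul_inv_cancel, Units.val_one, mul_one]]
  have h1 := (hh.mul hX).sub (hX.mul hh)
  exact InBox.add h1 (IsWide.mul (IsTiny.isWide h1) hi)

theorem conj_mem (hAB : r.IsBox A B C) {h g : GLv w} (hh : r.IsWide (h.val - 1))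
    (hg : g ∈ r.boxGrp hAB) : h * g * h⁻¹ ∈ r.boxGrp hAB := by
  rw [mem_boxGrp] at hg ⊢
  have := conj_tiny hh (hAB.isWide hg)
  rw [show (h * g * h⁻¹).val - 1 = (g.val - 1) + (h.val * (g.val - 1) * h⁻¹.val - (g.val - 1)) by
    rw [Units.val_mul, Units.val_mul, mul_sub, sub_mul, mul_one, ← Units.val_mul h h⁻¹,
      mul_inv_cancel, Units.val_one]; abel]
  exact hg.add (hAB.of_tiny this)

theorem small_entries_of_mem (hAB : r.IsBox A B C) {g : GLv w} (hg : g ∈ r.boxGrp hAB)
    (i j : Fin 2) : Valued.v (g.val i j) ≤ 1 := by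
  obtain ⟨a, b, ⟨c, hc, ec⟩, d⟩ := hAB.isWide hg
  simp only [mem_smallSub, Matrix.sub_apply, Matrix.one_apply_eq] at a b hc d
  rw [Matrix.one_apply_ne (by decide), sub_zero] at b
  rw [Matrix.sub_apply, Matrix.one_apply_ne (by decide), sub_zero] at ec
  rw [← small_zero_iff]
  fin_cases i <;> fin_cases j
  · simpa using (a.anti (Nat.zero_le _)).add small_one
  · exact b
  · show Small 0 (g.val 1 0)
    rw [ec]; exact (r.small_M.mul hc).anti (Nat.zero_le _)
  · simpa using (d.anti (Nat.zero_le _)).add small_one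

theorem mem_locInt_of_mem (hAB : r.IsBox A B C) {g : GLv w} (hg : g ∈ r.boxGrp hAB) :
    g ∈ LT.CO.locCongr w 0 := by
  refine LT.CO.mem_locCongr_zero_of_det (LT.CO.smallM_of_le_one (small_entries_of_mem hAB hg)) ?_
  have := (hAB.isWide hg).valued_det
  rwa [add_sub_cancel] at this

end Radii

end FermatAgent.LTG.Fixed

end
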