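import Mathlib
import Fermat.Agent.LT.General.Local.Fixed.Loc

set_option autoImplicit false

/-!
# Cube roots in the box groups

The matrices with diagonal in the deep box contract, once conjugated by a diagonal matrix: the map
`X ↦ Z - X² - X³/3` has exactly one fixed point.
-/

noncomputable section

open NumberField IsDedekindDomain WithZero
open FermatAgent.LT (GLv exists_limit_of_steps eq_of_small)

namespace FermatAgent.LTG.Fixed

variable {L : Type*} [Field L] [NumberField L] {w : HeightOneSpectrum (𝓞 L)}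

local notation "Lw" => HeightOneSpectrum.adicCompletion L w
local notation "M₂w" => Matrix (Fin 2) (Fin 2) (HeightOneSpectrum.adicCompletion L w)

namespace Radii

variable (r : Radii w) {A B C : AddSubgroup (w.adicCompletion L)}

/-- Smallness after the diagonal conjugation. -/
def WSmall (n : ℕ) (X : M₂w) : Prop :=
  ∀ i j : Fin 2, Valued.v (X i j) ≤
    exp (-(n : ℤ) + (((j : ℕ) : ℤ) - ((i : ℕ) : ℤ)) * r.eA)

variable {r}

theorem WSmall.add {n : ℕ} {X Y : M₂w} (hX : r.WSmall n X) (hY : r.WSmall n Y) :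
    r.WSmall n (X + Y) := fun i j => (Valuation.map_add _ _ _).trans (max_le (hX i j) (hY i j))

theorem WSmall.neg {n : ℕ} {X : M₂w} (hX : r.WSmall n X) : r.WSmall n (-X) := fun i j => by
  rw [Matrix.neg_apply, Valuation.map_neg]; exact hX i j

theorem WSmall.sub {n : ℕ} {X Y : M₂w} (hX : r.WSmall n X) (hY : r.WSmall n Y) :
    r.WSmall n (X - Y) := by
  rw [sub_eq_add_neg]; exact hX.add hY.neg

theorem WSmall.anti {m n : ℕ} (h : m ≤ n) {X : M₂w} (hX : r.WSmall n X) : r.WSmall m X :=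
  fun i j => (hX i j).trans (exp_le_exp.mpr (by omega))

theorem WSmall.mul {m n : ℕ} {X Y : M₂w} (hX : r.WSmall m X) (hY : r.WSmall n Y) :
    r.WSmall (m + n) (X * Y) := fun i j => by
  rw [Matrix.mul_apply, Fin.sum_univ_two]
  have h : ∀ k : Fin 2, Valued.v (X i k * Y k j) ≤
      exp (-((m + n : ℕ) : ℤ) + (((j : ℕ) : ℤ) - ((i : ℕ) : ℤ)) * r.eA) := fun k => by
    rw [map_mul, show -((m + n : ℕ) : ℤ) + (((j : ℕ) : ℤ) - ((i : ℕ) : ℤ)) * r.eA =
      (-(m : ℤ) + (((k : ℕ) : ℤ) - ((i : ℕ) : ℤ)) * r.eA) +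
        (-(n : ℤ) + (((j : ℕ) : ℤ) - ((k : ℕ) : ℤ)) * r.eA) by push_cast; ring, exp_add]
    exact mul_le_mul' (hX i k) (hY k j)
  exact (Valuation.map_add _ _ _).trans (max_le (h 0) (h 1))

theorem WSmall.third {m n : ℕ} {X : M₂w} (hX : r.WSmall m X) (h : n + r.e3 ≤ m) :
    r.WSmall n ((3 : Lw)⁻¹ • X) := fun i j => by
  rw [Matrix.smul_apply, smul_eq_mul, map_mul, map_inv₀, r.val_three, ← exp_neg]
  refine (mul_le_mul' le_rfl (hX i j)).trans ?_
  rw [← exp_add, exp_le_exp]
  omega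

theorem eq_of_wsmall {X Y : M₂w} (h : ∀ n, r.WSmall n (X - Y)) : X = Y := by
  refine Matrix.ext fun i j => eq_of_small fun n => ?_
  refine ((h (n + r.eA)) i j).trans (exp_le_exp.mpr ?_)
  fin_cases i <;> fin_cases j <;> simp

theorem wsmall_of_inBox (hAB : r.IsBox A B C) (hA : ∀ a ∈ A, Small r.eA a) {X : M₂w}
    (hX : r.InBox A B C X) : r.WSmall r.eA X := by
  obtain ⟨a, b, ⟨c, hc, ec⟩, d⟩ := hX
  have hb := small_zero_iff.mp (hAB.small_B _ b)
  have hc' := r.small_M.mul (hAB.small_C _ hc)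
  intro i j
  fin_cases i <;> fin_cases j
  · simpa [Small] using hA _ a
  · simpa using hb
  · refine (show Valued.v (X 1 0) ≤ _ by rw [ec]; exact hc').trans (exp_le_exp.mpr ?_)
    have := r.two_eA_le
    simp
    omega
  · simpa [Small] using hA _ d

theorem inBox_of_wsmall (hAB : r.IsBox A B C) {n : ℕ} (hn : r.e1 + r.eA + r.e2 ≤ n) {X : M₂w}
    (hX : r.WSmall n X) : r.InBox A B C X := by
  have h := fun i j => (hX i j : Valued.v (X i j) ≤ _)
  refine ⟨hAB.mem_A _ ((h 0 0).trans (exp_le_exp.mpr ?_)),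
    hAB.mem_B _ ((h 0 1).trans (exp_le_exp.mpr ?_)), ⟨X 1 0 / r.M, hAB.mem_C _ ?_, ?_⟩,
    hAB.mem_A _ ((h 1 1).trans (exp_le_exp.mpr ?_))⟩
  · simp; omega
  · have := r.eA_le_e1; have := r.eH_add_e3; simp; omega
  · refine r.small_div_M (m := 2 * r.e3 + r.e2) ((h 1 0).trans (exp_le_exp.mpr ?_)) le_rfl
    have := r.eA_le_e1; have := r.eH_add_e3
    simp; omega
  · rw [mul_div_cancel₀ _ r.M_ne_zero]
  · simp; omega

/-- The square and a third of the cube of a deep element stay in every box. -/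
theorem inBox_sq_cube (hAB : r.IsBox A B C) (hA : ∀ a ∈ A, Small r.eA a) {X : M₂w}
    (hX : r.InBox A B C X) : r.InBox A B C (X * X + (3 : Lw)⁻¹ • (X * X * X)) := by
  refine (hAB.of_tiny ((hAB.isWide hX).mul (hAB.isWide hX))).add ?_
  obtain ⟨a, b, ⟨c, hc, ec⟩, d⟩ := hX
  have a' := hA _ a
  have d' := hA _ d
  have b' := hAB.small_B _ b
  have c' := hAB.small_C _ hc
  have h1 := r.e1_add
  have h2 := r.e1_le_e2
  have h3 := r.two_e3_le
  have h4 := r.eA_le_e1
  have h5 := r.eH_add_e3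
  set p := X 0 0
  set q := X 0 1
  set u := X 1 1
  have s00 : Small (r.e1 + r.e3) (p * p + q * (r.M * c)) :=
    (a'.mul_le a' (by omega)).add (b'.mul_le (r.small_M.mul c') (by omega))
  have s11 : Small (r.e1 + r.e3) (r.M * c * q + u * u) :=
    ((r.small_M.mul c').mul_le b' (by omega)).add (d'.mul_le d' (by omega))
  have s01 : Small r.eA (p * q + q * u) :=
    (a'.mul_le b' (by omega)).add (b'.mul_le d' (by omega))
  have s10 : Small r.eA (c * p + u * c) :=
    (c'.mul_le a' (by omega)).add (d'.mul_le c' (by omega))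
  refine ⟨hAB.mem_A _ ?_, hAB.mem_B _ ?_,
    ⟨(3 : Lw)⁻¹ * ((c * p + u * c) * p + (r.M * c * q + u * u) * c), hAB.mem_C _ ?_, ?_⟩,
    hAB.mem_A _ ?_⟩ <;>
    simp only [Matrix.smul_apply, smul_eq_mul, Matrix.mul_apply, Fin.sum_univ_two, ec,
      inv_mul_eq_div]
  · exact r.small_div_three ((s00.mul_le a' (by omega)).add
      (s01.mul_le (r.small_M.mul c') (by omega))) le_rfl
  · refine r.small_div_three ((s00.mul_le b' le_rfl).add (s01.mul_le d' ?_)) (m := r.e1 + r.e3)
      (by omega)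
    omega
  · refine r.small_div_three ((s10.mul_le a' ?_).add (s11.mul_le c' le_rfl)) (m := r.e1 + r.e3)
      (by omega)
    omega
  · ring
  · refine r.small_div_three (m := r.e1 + r.e3) ?_ le_rfl
    rw [show r.M * c * p + u * (r.M * c) = r.M * (c * p + u * c) by ring]
    exact ((r.small_M.mul s10).mul_le b' (by omega)).add (s11.mul_le d' (by omega))

/-- The map whose fixed point is a cube root of `1 + 3 Z`. -/
def cubeStep (Z X : M₂w) : M₂w := Z - (X * X + (3 : Lw)⁻¹ • (X * X * X))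

theorem cubeStep_sub {Z X Y : M₂w} {n : ℕ} (hX : r.WSmall r.eA X) (hY : r.WSmall r.eA Y)
    (h : r.WSmall n (X - Y)) : r.WSmall (n + 1) (cubeStep Z X - cubeStep Z Y) := by
  have hlt := r.e3_lt_eA
  have h2 : r.WSmall (n + r.eA) (X * X - Y * Y) := by
    rw [show X * X - Y * Y = (X - Y) * X + Y * (X - Y) by noncomm_ring]
    exact (h.mul hX).add ((hY.mul h).anti (by omega))
  have h3 : r.WSmall (n + 2 * r.eA) (X * X * X - Y * Y * Y) := by
    rw [show X * X * X - Y * Y * Y = (X * X - Y * Y) * X + Y * Y * (X - Y) by noncomm_ring]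
    exact ((h2.mul hX).anti (by omega)).add (((hY.mul hY).mul h).anti (by omega))
  rw [show cubeStep Z X - cubeStep Z Y =
      -((X * X - Y * Y) + (3 : Lw)⁻¹ • (X * X * X - Y * Y * Y)) by
    rw [cubeStep, cubeStep, smul_sub]; abel]
  exact ((h2.anti (by omega)).add (h3.third (by omega))).neg

include r in
theorem cube_eq (X : M₂w) :
    (1 + X) * (1 + X) * (1 + X) = 1 + (3 : Lw) • (X + (X * X + (3 : Lw)⁻¹ • (X * X * X))) := by
  have h : (3 : Lw) ≠ 0 := r.three_ne_zero
  rw [smul_add, smul_add, smul_smul, mul_inv_cancel₀ h, one_smul]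
  simp only [ofNat_smul_eq_nsmul Lw]
  noncomm_ring

include r in
theorem fixed_iff_cube {Z X : M₂w} :
    cubeStep Z X = X ↔ (1 + X) * (1 + X) * (1 + X) = 1 + (3 : Lw) • Z := by
  have h3 := r.three_ne_zero
  rw [cube_eq (r := r), add_right_inj, (smul_right_injective _ h3).eq_iff, cubeStep]
  exact sub_eq_iff_eq_add.trans eq_comm

/-- Cube roots are unique. -/
theorem cube_unique {X Y : M₂w} (hX : r.WSmall r.eA X) (hY : r.WSmall r.eA Y)
    (h : (1 + X) * (1 + X) * (1 + X) = (1 + Y) * (1 + Y) * (1 + Y)) : X = Y := by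
  set Z := X + (X * X + (3 : Lw)⁻¹ • (X * X * X))
  have hXZ : cubeStep Z X = X := (fixed_iff_cube (r := r)).mpr (cube_eq (r := r) X)
  have hYZ : cubeStep Z Y = Y := (fixed_iff_cube (r := r)).mpr (h ▸ cube_eq (r := r) X)
  refine eq_of_wsmall (r := r) fun n => ?_
  induction n with
  | zero => exact (hX.sub hY).anti (Nat.zero_le _)
  | succ n ih =>
    have := cubeStep_sub (Z := Z) hX hY ih
    rwa [hXZ, hYZ] at this

/-- Cube roots exist. -/
theorem exists_cube_root (hAB : r.IsBox A B C) (hA : ∀ a ∈ A, Small r.eA a) {Z : M₂w}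
    (hZ : r.InBox A B C Z) :
    ∃ X, r.InBox A B C X ∧ (1 + X) * (1 + X) * (1 + X) = 1 + (3 : Lw) • Z := by
  let a : ℕ → M₂w := fun n => (cubeStep Z)^[n] 0
  have hs : ∀ n, a (n + 1) = cubeStep Z (a n) := fun n => Function.iterate_succ_apply' _ _ _
  have hmem : ∀ n, r.InBox A B C (a n) := by
    intro n
    induction n with
    | zero => exact inBox_zero
    | succ n ih => rw [hs]; exact hZ.sub (inBox_sq_cube hAB hA ih)
  have hw : ∀ n, r.WSmall r.eA (a n) := fun n => wsmall_of_inBox hAB hA (hmem n)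
  have hstep : ∀ n, r.WSmall (r.eA + n) (a (n + 1) - a n) := by
    intro n
    induction n with
    | zero => simpa using (hw 1).sub (hw 0)
    | succ n ih =>
      have := cubeStep_sub (Z := Z) (hw (n + 1)) (hw n) ih
      rw [← hs, ← hs] at this
      exact this
  have hentry : ∀ i j : Fin 2, ∀ n,
      Valued.v (a (n + 1) i j - a n i j) ≤ exp (-(n : ℤ)) := fun i j n => by
    refine ((hstep n) i j).trans (exp_le_exp.mpr ?_)
    fin_cases i <;> fin_cases j <;> simp
  have hl : ∀ i j : Fin 2, ∃ l, ∀ n, Valued.v (l - a n i j) ≤ exp (-(n : ℤ)) := fun i j =>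
    exists_limit_of_steps (a := fun n => a n i j) (hentry i j)
  choose l hl using hl
  let X : M₂w := Matrix.of l
  have hlim : ∀ n, r.WSmall n (X - a (n + r.eA)) := fun n i j => by
    refine (hl i j (n + r.eA)).trans (exp_le_exp.mpr ?_)
    fin_cases i <;> fin_cases j <;> simp
  have hX : r.InBox A B C X := by
    have h := (inBox_of_wsmall hAB le_rfl (hlim (r.e1 + r.eA + r.e2))).add
      (hmem (r.e1 + r.eA + r.e2 + r.eA))
    rwa [sub_add_cancel] at h
  refine ⟨X, hX, (fixed_iff_cube (r := r)).mp (eq_of_wsmall (r := r) fun n => ?_)⟩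
  have h1 := (cubeStep_sub (Z := Z) (wsmall_of_inBox hAB hA hX) (hw _) (hlim n)).anti
    (Nat.le_succ n)
  have h2 : r.WSmall n (a (n + r.eA + 1) - a (n + r.eA)) :=
    (hstep (n + r.eA)).anti (by omega)
  rw [show cubeStep Z X - X = (cubeStep Z X - cubeStep Z (a (n + r.eA))) +
    (a (n + r.eA + 1) - a (n + r.eA)) - (X - a (n + r.eA)) by rw [hs]; abel]
  exact (h1.add h2).sub (hlim n)

theorem cube_unique_grp (hAB : r.IsBox A B C) (hA : ∀ a ∈ A, Small r.eA a) {g h : GLv w}
    (hg : g ∈ r.boxGrp hAB) (hh : h ∈ r.boxGrp hAB) (e : g * g * g = h * h * h) : g = h := by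
  refine Units.ext (sub_left_injective (cube_unique (wsmall_of_inBox hAB hA hg)
    (wsmall_of_inBox hAB hA hh) ?_))
  simp only [add_sub_cancel, ← Units.val_mul]
  rw [e]

theorem exists_cube_root_grp (hAB : r.IsBox A B C) (hA : ∀ a ∈ A, Small r.eA a) {g : GLv w}
    (hg : r.InBox A B C ((3 : Lw)⁻¹ • (g.val - 1))) :
    ∃ c ∈ r.boxGrp hAB, c * c * c = g := by
  obtain ⟨X, hX, e⟩ := exists_cube_root hAB hA hg
  obtain ⟨c, hc, hcv⟩ := exists_of_inBox hAB hX
  refine ⟨c, hc, Units.ext ?_⟩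
  rw [Units.val_mul, Units.val_mul, hcv, e, smul_smul, mul_inv_cancel₀ r.three_ne_zero, one_smul,
    add_sub_cancel]

theorem cube_sub_one (hAB : r.IsBox A B C) (hA : ∀ a ∈ A, Small r.eA a) {g : GLv w}
    (hg : g ∈ r.boxGrp hAB) : r.InBox A B C ((3 : Lw)⁻¹ • ((g * g * g).val - 1)) := by
  have e : (g * g * g).val = (1 + (g.val - 1)) * (1 + (g.val - 1)) * (1 + (g.val - 1)) := by
    simp only [add_sub_cancel, Units.val_mul]
  rw [e, cube_eq (r := r), add_sub_cancel_left, smul_smul, inv_mul_cancel₀ r.three_ne_zero, one_smul]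
  exact InBox.add hg (inBox_sq_cube hAB hA hg)

end Radii

end FermatAgent.LTG.Fixed

end
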