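import Mathlib
import Fermat.Agent.LT.General.Local.Fixed.Cube

set_option autoImplicit false

/-!
# The boxes of an additive character with an automorphism of order three
-/

noncomputable section

open NumberField IsDedekindDomain WithZero
open FermatAgent.LT (GLv)

namespace FermatAgent.LTG.Fixed

variable {L : Type*} [Field L] [NumberField L] {w : HeightOneSpectrum (𝓞 L)}

local notation "Lw" => HeightOneSpectrum.adicCompletion L w
local notation "M₂w" => Matrix (Fin 2) (Fin 2) (HeightOneSpectrum.adicCompletion L w)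

/-- An additive character on the integers with an automorphism of order three. -/
structure LocChar (w : HeightOneSpectrum (𝓞 L)) extends Radii w where
  /-- the automorphism -/
  s : w.adicCompletion L ≃+* w.adicCompletion L
  s_three : ∀ x, s (s (s x)) = x
  s_val : ∀ x, Valued.v (s x) = Valued.v x
  s_M : s M = M
  /-- the character -/
  psi : w.adicCompletion L → ℂ
  psi_add : ∀ x y, Small 0 x → Small 0 y → psi (x + y) = psi x * psi y
  psi_small : ∀ x, Small e1 x → psi x = 1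
  psi_gal : ∀ x, Small 0 x → psi (s x) = psi x
  psi_tr : ∀ x, Small 0 x → Small e3 (x + s x + s (s x)) → psi x = psi ((x + s x + s (s x)) / 3)
  dual_small : ∀ z, Small 0 z → (∀ o, Small 0 o → psi (z * o) = 1) → Small (eA + e3) z

namespace LocChar

variable (c : LocChar w)

/-- The trace over the fixed field. -/
def tr : Lw →+ Lw := AddMonoidHom.id _ + c.s.toAddMonoidHom + c.s.toAddMonoidHom.comp c.s.toAddMonoidHom

theorem tr_apply (x : Lw) : c.tr x = x + c.s x + c.s (c.s x) := rfl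

theorem small_s {n : ℕ} {x : Lw} (hx : Small n x) : Small n (c.s x) := by
  rw [Small, c.s_val]; exact hx

theorem small_tr {n : ℕ} {x : Lw} (hx : Small n x) : Small n (c.tr x) :=
  (hx.add (c.small_s hx)).add (c.small_s (c.small_s hx))

theorem s_tr (x : Lw) : c.s (c.tr x) = c.tr x := by
  simp only [tr_apply, map_add, c.s_three]; ring

theorem tr_s (x : Lw) : c.tr (c.s x) = c.tr x := by
  simp only [tr_apply, c.s_three]; ring

theorem s_tr_third (x : Lw) : c.s (c.tr x / 3) = c.tr x / 3 := by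
  rw [map_div₀, c.s_tr, map_ofNat]

theorem tr_mul_fixed {o : Lw} (ho : c.s o = o) (x : Lw) : c.tr (o * x) = o * c.tr x := by
  simp only [tr_apply, map_mul, ho]; ring

theorem tr_fixed {o : Lw} (ho : c.s o = o) : c.tr o = 3 * o := by
  simp only [tr_apply, ho]; ring

theorem psi_zero : c.psi 0 = 1 := c.psi_small 0 (small_zero' _)

theorem psi_neg_mul {x : Lw} (hx : Small 0 x) : c.psi (-x) * c.psi x = 1 := by
  rw [← c.psi_add _ _ hx.neg hx, neg_add_cancel, c.psi_zero]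

theorem psi_ne_zero {x : Lw} (hx : Small 0 x) : c.psi x ≠ 0 := fun h => by
  have := c.psi_neg_mul hx
  rw [h, mul_zero] at this
  exact zero_ne_one this

theorem psi_neg {x : Lw} (hx : Small 0 x) : c.psi (-x) = (c.psi x)⁻¹ :=
  eq_inv_of_mul_eq_one_left (c.psi_neg_mul hx)

theorem psi_sub {x y : Lw} (hx : Small 0 x) (hy : Small 0 y) :
    c.psi (x - y) = c.psi x * (c.psi y)⁻¹ := by
  rw [sub_eq_add_neg, c.psi_add _ _ hx hy.neg, c.psi_neg hy]

theorem psi_congr {x y : Lw} (hy : Small 0 y) (h : Small c.e1 (x - y)) : c.psi x = c.psi y := by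
  rw [show x = (x - y) + y by ring, c.psi_add _ _ (h.anti (Nat.zero_le _)) hy, c.psi_small _ h,
    one_mul]

/-- Moving the automorphism to the other factor. -/
theorem psi_mul_gal {x y : Lw} (hx : Small 0 x) (hy : Small 0 y) :
    c.psi (x * c.s y) = c.psi (c.s (c.s x) * y) := by
  rw [← c.psi_gal (c.s (c.s x) * y) ((c.small_s (c.small_s hx)).mul hy), map_mul, c.s_three]

/-- The upper box. -/
def boxB : AddSubgroup Lw := smallSub w 0 ⊓ (smallSub w c.e3).comap c.tr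

theorem mem_boxB {b : Lw} : b ∈ c.boxB ↔ Small 0 b ∧ Small c.e3 (c.tr b) := Iff.rfl

/-- The upper box of the normal subgroup. -/
def boxB₀ : AddSubgroup Lw :=
  c.boxB ⊓ (smallSub w c.e3).comap (AddMonoidHom.id Lw - c.s.toAddMonoidHom.comp c.s.toAddMonoidHom)

/-- The lower box: three times the upper one. -/
def boxC : AddSubgroup Lw := smallSub w c.e3 ⊓ (smallSub w (2 * c.e3)).comap c.tr

theorem mem_boxC {b : Lw} : b ∈ c.boxC ↔ Small c.e3 b ∧ Small (2 * c.e3) (c.tr b) := Iff.rfl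

/-- The lower box of the normalising group. -/
def boxCp : AddSubgroup Lw := smallSub w 0 ⊓ (smallSub w (2 * c.e3)).comap c.tr

theorem boxC_le_boxCp : c.boxC ≤ c.boxCp := fun _ h => ⟨h.1.anti (Nat.zero_le _), h.2⟩

theorem small_two_e3_mem_boxC {x : Lw} (hx : Small (2 * c.e3) x) : x ∈ c.boxC :=
  ⟨hx.anti (by omega), c.small_tr hx⟩

theorem s_boxC {b : Lw} (hb : b ∈ c.boxC) : c.s b ∈ c.boxC :=
  ⟨c.small_s hb.1, by show Small (2 * c.e3) (c.tr (c.s b)); rw [c.tr_s]; exact hb.2⟩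

/-- The diagonal box: the dual of the upper box. -/
def boxA : AddSubgroup Lw where
  carrier := {y | Small 0 y ∧ ∀ b ∈ c.boxB, c.psi (y * b) = 1}
  zero_mem' := ⟨small_zero' _, fun b _ => by rw [zero_mul, c.psi_zero]⟩
  add_mem' {x y} hx hy := ⟨hx.1.add hy.1, fun b hb => by
    rw [add_mul, c.psi_add _ _ (hx.1.mul hb.1) (hy.1.mul hb.1), hx.2 b hb, hy.2 b hb, one_mul]⟩
  neg_mem' {x} hx := ⟨hx.1.neg, fun b hb => by
    rw [neg_mul, c.psi_neg (hx.1.mul hb.1), hx.2 b hb, inv_one]⟩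

theorem mem_boxA {y : Lw} : y ∈ c.boxA ↔ Small 0 y ∧ ∀ b ∈ c.boxB, c.psi (y * b) = 1 := Iff.rfl

theorem small_boxA {y : Lw} (hy : y ∈ c.boxA) : Small c.eA y := by
  have h3 : Small (c.eA + c.e3) (3 * y) := by
    refine c.dual_small _ ((c.small_three.anti (Nat.zero_le _)).mul hy.1) fun o ho => ?_
    rw [show 3 * y * o = y * (3 * o) by ring]
    refine hy.2 _ ⟨((c.small_three.mul ho).anti (Nat.zero_le _) :), ?_⟩
    show Small c.e3 (c.tr (3 * o))
    rw [c.tr_mul_fixed (map_ofNat c.s 3)]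
    exact c.small_three.mul (c.small_tr ho)
  have := c.small_div_three_iff.mpr h3
  rwa [mul_div_cancel_left₀ _ c.three_ne_zero] at this

/-- The larger diagonal box. -/
def boxAp : AddSubgroup Lw :=
  smallSub w c.eH ⊓ c.boxA.comap (AddMonoidHom.mulLeft 3) ⊓
    c.boxA.comap ((AddMonoidHom.mulRight (3 : Lw)⁻¹).comp c.tr)

theorem mem_boxAp {α : Lw} :
    α ∈ c.boxAp ↔ Small c.eH α ∧ 3 * α ∈ c.boxA ∧ c.tr α / 3 ∈ c.boxA :=
  (and_assoc).trans (by rw [div_eq_mul_inv]; rfl)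

theorem tr_third_fixed_small {b : Lw} (hb : b ∈ c.boxB) :
    Small 0 (c.tr b / 3) ∧ c.s (c.tr b / 3) = c.tr b / 3 :=
  ⟨c.small_div_three hb.2 (by rw [zero_add]), c.s_tr_third b⟩

theorem fixed_mem_boxB {o : Lw} (h : Small 0 o) (hs : c.s o = o) : o ∈ c.boxB := by
  refine ⟨h, ?_⟩
  show Small c.e3 (c.tr o)
  rw [c.tr_fixed hs]
  exact c.small_three.mul h

theorem fixed_mem_boxB₀ {o : Lw} (h : Small 0 o) (hs : c.s o = o) : o ∈ c.boxB₀ :=
  ⟨c.fixed_mem_boxB h hs, by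
    show Small c.e3 (o - c.s (c.s o))
    rw [hs, hs, sub_self]
    exact small_zero' _⟩

/-- The trace and the fixed multiplier change sides. -/
theorem psi_tr_third_mul {x b : Lw} (hx : Small 0 x) (hxt : Small c.e3 (c.tr x))
    (hb : b ∈ c.boxB) : c.psi (c.tr x / 3 * b) = c.psi (x * (c.tr b / 3)) := by
  obtain ⟨hb3, hbs⟩ := c.tr_third_fixed_small hb
  have hx3 : Small 0 (c.tr x / 3) := c.small_div_three hxt (by rw [zero_add])
  have h1 : c.tr (c.tr x / 3 * b) = c.tr x / 3 * c.tr b := c.tr_mul_fixed (c.s_tr_third x) b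
  have h2 : c.tr (x * (c.tr b / 3)) = c.tr b / 3 * c.tr x := by
    rw [mul_comm x, c.tr_mul_fixed hbs]
  rw [c.psi_tr _ (hx3.mul hb.1) (by rw [← c.tr_apply, h1]; exact hx3.mul_le hb.2 (by omega)),
    c.psi_tr (x * _) (hx.mul hb3) (by rw [← c.tr_apply, h2]; exact hb3.mul_le hxt (by omega)),
    ← c.tr_apply, ← c.tr_apply, h1, h2]
  congr 1
  ring

theorem tr_third_mem_boxA {x : Lw} (hx : Small 0 x) (hxt : Small c.e3 (c.tr x))
    (h : ∀ o, Small 0 o → c.s o = o → c.psi (x * o) = 1) : c.tr x / 3 ∈ c.boxA :=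
  ⟨c.small_div_three hxt (by rw [zero_add]), fun b hb => by
    rw [c.psi_tr_third_mul hx hxt hb]
    exact h _ (c.tr_third_fixed_small hb).1 (c.tr_third_fixed_small hb).2⟩

theorem tr_boxA {a : Lw} (ha : a ∈ c.boxA) : c.tr a / 3 ∈ c.boxA :=
  c.tr_third_mem_boxA ha.1 ((c.small_tr (c.small_boxA ha)).anti (by have := c.e3_lt_eA; omega))
    fun _ ho hs => ha.2 _ (c.fixed_mem_boxB ho hs)

theorem small_e1_mem_boxA {x : Lw} (hx : Small c.e1 x) : x ∈ c.boxA :=
  ⟨hx.anti (Nat.zero_le _), fun b hb => c.psi_small _ (by simpa using hx.mul hb.1)⟩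

theorem boxA_le_boxAp : c.boxA ≤ c.boxAp := fun a ha => by
  refine c.mem_boxAp.mpr ⟨(c.small_boxA ha).anti (by have := c.eH_add_e3; omega), ?_, c.tr_boxA ha⟩
  rw [show (3 : Lw) * a = a + a + a by ring]
  exact add_mem (add_mem ha ha) ha

theorem boxB₀_le_boxB : c.boxB₀ ≤ c.boxB := fun _ h => h.1

theorem small_e3_mem_boxB₀ {x : Lw} (hx : Small c.e3 x) : x ∈ c.boxB₀ :=
  ⟨⟨hx.anti (Nat.zero_le _), c.small_tr hx⟩, hx.sub (c.small_s (c.small_s hx))⟩

theorem isBox_J : c.IsBox c.boxA c.boxB c.boxC :=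
  ⟨fun _ ha => (c.small_boxA ha).anti (by have := c.eH_add_e3; omega), fun _ hb => hb.1,
    fun _ => c.small_e1_mem_boxA, fun _ hb => hb.1.anti (Nat.zero_le _),
    fun _ hx => (c.small_e3_mem_boxB₀ hx).1, fun _ => c.small_two_e3_mem_boxC⟩

theorem isBox_J₀ : c.IsBox c.boxA c.boxB₀ c.boxC :=
  ⟨c.isBox_J.small_A, fun _ hb => hb.1.1, c.isBox_J.mem_A, c.isBox_J.small_C,
    fun _ => c.small_e3_mem_boxB₀, c.isBox_J.mem_C⟩

theorem isBox_H : c.IsBox c.boxAp c.boxB c.boxCp :=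
  ⟨fun _ ha => (c.mem_boxAp.mp ha).1, c.isBox_J.small_B,
    fun _ hx => c.boxA_le_boxAp (c.small_e1_mem_boxA hx), fun _ hb => hb.1,
    c.isBox_J.mem_B, fun _ hx => c.boxC_le_boxCp (c.small_two_e3_mem_boxC hx)⟩

/-- The group of the level. -/
def grpJ : Subgroup (GLv w) := c.boxGrp c.isBox_J

/-- The normal subgroup with cube roots of norms. -/
def grpU : Subgroup (GLv w) := c.boxGrp c.isBox_J₀

/-- The normalising group. -/
def grpH : Subgroup (GLv w) := c.boxGrp c.isBox_H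

theorem grpU_le_grpJ : c.grpU ≤ c.grpJ := fun _ h => Radii.InBox.mono le_rfl c.boxB₀_le_boxB le_rfl h

theorem grpU_le_grpH : c.grpU ≤ c.grpH := fun _ h =>
  Radii.InBox.mono c.boxA_le_boxAp c.boxB₀_le_boxB c.boxC_le_boxCp h

theorem s_boxB {b : Lw} (hb : b ∈ c.boxB) : c.s b ∈ c.boxB :=
  ⟨c.small_s hb.1, by show Small c.e3 (c.tr (c.s b)); rw [c.tr_s]; exact hb.2⟩

theorem s_boxB₀ {b : Lw} (hb : b ∈ c.boxB₀) : c.s b ∈ c.boxB₀ := by
  refine ⟨c.s_boxB hb.1, ?_⟩
  show Small c.e3 (c.s b - c.s (c.s (c.s b)))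
  rw [← map_sub]
  exact c.small_s hb.2

theorem s_boxA {a : Lw} (ha : a ∈ c.boxA) : c.s a ∈ c.boxA := by
  refine ⟨c.small_s ha.1, fun b hb => ?_⟩
  rw [mul_comm, c.psi_mul_gal hb.1 ha.1, mul_comm]
  exact ha.2 _ (c.s_boxB (c.s_boxB hb))

/-- The automorphism on matrices. -/
abbrev sMap : GLv w →* GLv w := Matrix.GeneralLinearGroup.map c.s.toRingHom

theorem map_inBox {A B C : AddSubgroup Lw} (hA : ∀ a ∈ A, c.s a ∈ A) (hB : ∀ b ∈ B, c.s b ∈ B)
    (hC : ∀ b ∈ C, c.s b ∈ C) {X : M₂w} (hX : c.InBox A B C X) : c.InBox A B C (X.map c.s) := by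
  obtain ⟨a, b, ⟨x, hx, ex⟩, d⟩ := hX
  exact ⟨hA _ a, hB _ b, ⟨c.s x, hC _ hx, by rw [Matrix.map_apply, ex, map_mul, c.s_M]⟩, hA _ d⟩

theorem sMap_sub_one (g : GLv w) : (c.sMap g).val - 1 = (g.val - 1).map c.s := by
  rw [Matrix.map_sub _ (map_sub c.s), Matrix.map_one _ (map_zero c.s) (map_one c.s)]
  rfl

theorem sMap_grpU {g : GLv w} (hg : g ∈ c.grpU) : c.sMap g ∈ c.grpU := by
  rw [grpU, Radii.mem_boxGrp, sMap_sub_one]
  exact c.map_inBox (fun _ => c.s_boxA) (fun _ => c.s_boxB₀) (fun _ => c.s_boxC) hg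

theorem sMap_grpJ {g : GLv w} (hg : g ∈ c.grpJ) : c.sMap g ∈ c.grpJ := by
  rw [grpJ, Radii.mem_boxGrp, sMap_sub_one]
  exact c.map_inBox (fun _ => c.s_boxA) (fun _ => c.s_boxB) (fun _ => c.s_boxC) hg

theorem sMap_three (g : GLv w) : c.sMap (c.sMap (c.sMap g)) = g :=
  Matrix.GeneralLinearGroup.ext fun _ _ => c.s_three _

theorem normal_grpU {h u : GLv w} (hh : h ∈ c.grpH) (hu : u ∈ c.grpU) : h * u * h⁻¹ ∈ c.grpU :=
  Radii.conj_mem c.isBox_J₀ (c.isBox_H.isWide hh) hu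

theorem normal_grpJ {h u : GLv w} (hh : h ∈ c.grpH) (hu : u ∈ c.grpJ) : h * u * h⁻¹ ∈ c.grpJ :=
  Radii.conj_mem c.isBox_J (c.isBox_H.isWide hh) hu

theorem fixed_boxAp {α : Lw} (h : α ∈ c.boxAp) (hs : c.s α = α) : α ∈ c.boxA := by
  have := (c.mem_boxAp.mp h).2.2
  rwa [c.tr_fixed hs, mul_div_cancel_left₀ _ c.three_ne_zero] at this

theorem fixed_grpH {h : GLv w} (hh : h ∈ c.grpH) (hs : c.sMap h = h) : h ∈ c.grpU := by
  obtain ⟨a, b, ⟨x, hx, ex⟩, d⟩ := hh
  have hX : (h.val - 1).map c.s = h.val - 1 := by rw [← sMap_sub_one, hs]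
  have hf : ∀ i j, c.s ((h.val - 1) i j) = (h.val - 1) i j := fun i j =>
    congrFun (congrFun hX i) j
  refine ⟨c.fixed_boxAp a (hf 0 0), c.fixed_mem_boxB₀ b.1 (hf 0 1),
    ⟨x, ?_, ex⟩, c.fixed_boxAp d (hf 1 1)⟩
  have := hf 1 0
  rw [ex, map_mul, c.s_M] at this
  have hfx : c.s x = x := mul_left_cancel₀ c.M_ne_zero this
  refine ⟨?_, hx.2⟩
  have h2 : Small (2 * c.e3) (c.tr x) := hx.2
  rw [c.tr_fixed hfx] at h2
  have h3 := c.small_div_three (n := c.e3) h2 (by omega)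
  rwa [mul_div_cancel_left₀ _ c.three_ne_zero] at h3

/-- A third of a product of two matrices of the deep box stays in it. -/
theorem third_mul_mem {X Y : M₂w} (hX : c.InBox c.boxA c.boxB₀ c.boxC X)
    (hY : c.InBox c.boxA c.boxB₀ c.boxC Y) :
    c.InBox c.boxA c.boxB₀ c.boxC ((3 : Lw)⁻¹ • (X * Y)) := by
  obtain ⟨a, b, ⟨x, hx, ex⟩, d⟩ := hX
  obtain ⟨a', b', ⟨x', hx', ex'⟩, d'⟩ := hY
  have ha := c.small_boxA a
  have ha' := c.small_boxA a'
  have hd := c.small_boxA d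
  have hd' := c.small_boxA d'
  have hb := b.1.1
  have hb' := b'.1.1
  have hx0 := hx.1
  have hx0' := hx'.1
  have h1 := c.e1_add
  have h2 := c.e1_le_e2
  have h3 := c.two_e3_le
  refine ⟨c.small_e1_mem_boxA ?_, c.small_e3_mem_boxB₀ ?_,
    ⟨(3 : Lw)⁻¹ * (x * Y 0 0 + X 1 1 * x'), c.small_two_e3_mem_boxC ?_, ?_⟩,
    c.small_e1_mem_boxA ?_⟩ <;>
    simp only [Matrix.smul_apply, smul_eq_mul, Matrix.mul_apply, Fin.sum_univ_two, ex, ex',
      inv_mul_eq_div]
  · exact c.small_div_three (m := c.e1 + c.e3)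
      ((ha.mul_le ha' (by omega)).add (hb.mul_le (c.small_M.mul hx0') (by omega))) le_rfl
  · exact c.small_div_three (m := c.e3 + c.e3)
      ((ha.mul_le hb' (by omega)).add (hb.mul_le hd' (by omega))) le_rfl
  · exact c.small_div_three (m := 2 * c.e3 + c.e3)
      ((hx0.mul_le ha' (by omega)).add (hd.mul_le hx0' (by omega))) le_rfl
  · ring
  · exact c.small_div_three (m := c.e1 + c.e3)
      (((c.small_M.mul hx0).mul_le hb' (by omega)).add (hd.mul_le hd' (by omega))) le_rfl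

theorem sum_third_mem {X : M₂w} (hX : c.InBox c.boxA c.boxB₀ c.boxC X) :
    c.InBox c.boxA c.boxB₀ c.boxC ((3 : Lw)⁻¹ • (X + X.map c.s + (X.map c.s).map c.s)) := by
  obtain ⟨a, b, ⟨x, hx, ex⟩, d⟩ := hX
  have key : ∀ {y : Lw}, y ∈ c.boxB₀ → c.tr y / 3 ∈ c.boxB₀ := fun hy =>
    c.fixed_mem_boxB₀ (c.tr_third_fixed_small hy.1).1 (c.tr_third_fixed_small hy.1).2
  have e : ∀ i j, ((3 : Lw)⁻¹ • (X + X.map c.s + (X.map c.s).map c.s)) i j =
      c.tr (X i j) / 3 := fun i j => by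
    simp [tr_apply, div_eq_inv_mul]
  refine ⟨by rw [e]; exact c.tr_boxA a, by rw [e]; exact key b, ⟨c.tr x / 3, ⟨c.small_div_three hx.2 (by omega), ?_⟩, ?_⟩,
    by rw [e]; exact c.tr_boxA d⟩
  · show Small (2 * c.e3) (c.tr (c.tr x / 3))
    rw [c.tr_fixed (c.s_tr_third x), mul_div_cancel₀ _ c.three_ne_zero]
    exact hx.2
  · rw [e, ex, c.tr_mul_fixed c.s_M, mul_div_assoc]

/-- The norm of an element of the deep group is a cube in it. -/
theorem exists_cube_norm {u : GLv w} (hu : u ∈ c.grpU) :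
    ∃ x ∈ c.grpU, x * x * x = u * c.sMap u * c.sMap (c.sMap u) := by
  refine Radii.exists_cube_root_grp c.isBox_J₀ (fun _ => c.small_boxA) ?_
  set X := u.val - 1
  have hX : c.InBox c.boxA c.boxB₀ c.boxC X := hu
  have h1 := c.map_inBox (fun _ => c.s_boxA) (fun _ => c.s_boxB₀) (fun _ => c.s_boxC) hX
  have h2 := c.map_inBox (fun _ => c.s_boxA) (fun _ => c.s_boxB₀) (fun _ => c.s_boxC) h1
  have e1 : (c.sMap u).val = 1 + X.map c.s := by rw [← sMap_sub_one, add_sub_cancel]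
  have e2 : (c.sMap (c.sMap u)).val = 1 + (X.map c.s).map c.s := by
    rw [← sMap_sub_one, ← sMap_sub_one, add_sub_cancel]
  set Y := X.map c.s
  set Z := Y.map c.s
  rw [show (3 : Lw)⁻¹ • ((u * c.sMap u * c.sMap (c.sMap u)).val - 1) =
      (3 : Lw)⁻¹ • (X + Y + Z) + ((3 : Lw)⁻¹ • (X * Y) + (3 : Lw)⁻¹ • (X * Z) +
        (3 : Lw)⁻¹ • (Y * Z) + (3 : Lw)⁻¹ • (X * (Y * Z))) by
    rw [← smul_add, ← smul_add, ← smul_add, ← smul_add, Units.val_mul, Units.val_mul, e1, e2,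
      show u.val = 1 + X from (add_sub_cancel _ _).symm]
    congr 1
    noncomm_ring]
  exact (c.sum_third_mem hX).add ((((c.third_mul_mem hX h1).add (c.third_mul_mem hX h2)).add
    (c.third_mul_mem h1 h2)).add (c.third_mul_mem hX
      (c.isBox_J₀.of_tiny ((c.isBox_J₀.isWide h1).mul (c.isBox_J₀.isWide h2)))))

/-- An element of norm one of the deep group splits in the normalising group. -/
theorem exists_h90 {u : GLv w} (hu : u ∈ c.grpU)
    (hn : u * c.sMap u * c.sMap (c.sMap u) = 1) : ∃ v ∈ c.grpH, v = u * c.sMap v := by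
  set X := u.val - 1
  have hX : c.InBox c.boxA c.boxB₀ c.boxC X := hu
  have h1 := c.map_inBox (fun _ => c.s_boxA) (fun _ => c.s_boxB₀) (fun _ => c.s_boxC) hX
  set Y := X.map c.s
  have hV : c.InBox c.boxAp c.boxB c.boxCp ((3 : Lw)⁻¹ • (X + X + Y) + (3 : Lw)⁻¹ • (X * Y)) := by
    refine Radii.InBox.add ?_
      (Radii.InBox.mono c.boxA_le_boxAp c.boxB₀_le_boxB c.boxC_le_boxCp
        (c.third_mul_mem hX h1))
    obtain ⟨a, b, ⟨x, hx, ex⟩, d⟩ := hX
    have hA : ∀ {a : Lw}, a ∈ c.boxA → (a + a + c.s a) / 3 ∈ c.boxAp := fun {a} ha => by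
      refine c.mem_boxAp.mpr ⟨c.small_div_three (m := c.eA) ?_ c.eH_add_e3, ?_, ?_⟩
      · exact ((c.small_boxA ha).add (c.small_boxA ha)).add (c.small_s (c.small_boxA ha))
      · rw [mul_div_cancel₀ _ c.three_ne_zero]
        exact add_mem (add_mem ha ha) (c.s_boxA ha)
      · rw [show c.tr ((a + a + c.s a) / 3) = c.tr a by
          rw [div_eq_inv_mul, c.tr_mul_fixed (by rw [map_inv₀, map_ofNat]), map_add, map_add,
            c.tr_s]
          field_simp [c.three_ne_zero]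
          ring]
        exact c.tr_boxA ha
    have hB : ∀ {b : Lw}, b ∈ c.boxB₀ → (b + b + c.s b) / 3 ∈ c.boxB := fun {b} hb => by
      refine ⟨?_, ?_⟩
      · show Small 0 _
        have hd : Small c.e3 (c.s (b - c.s (c.s b))) := c.small_s hb.2
        rw [map_sub, c.s_three] at hd
        rw [show (b + b + c.s b) / 3 = b + (c.s b - b) / 3 by
          field_simp [c.three_ne_zero]; ring]
        exact hb.1.1.add (c.small_div_three hd (by rw [zero_add]))
      · show Small c.e3 (c.tr _)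
        rw [show c.tr ((b + b + c.s b) / 3) = c.tr b by
          rw [div_eq_inv_mul, c.tr_mul_fixed (by rw [map_inv₀, map_ofNat]), map_add, map_add,
            c.tr_s]
          field_simp [c.three_ne_zero]
          ring]
        exact hb.1.2
    have e : ∀ i j, ((3 : Lw)⁻¹ • (X + X + Y)) i j = (X i j + X i j + c.s (X i j)) / 3 := fun i j => by
      simp [Y, div_eq_inv_mul]
    have hC : ∀ {x : Lw}, x ∈ c.boxC → (x + x + c.s x) / 3 ∈ c.boxCp := fun {x} hx => by
      refine ⟨?_, ?_⟩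
      · show Small 0 _
        exact c.small_div_three ((hx.1.add hx.1).add (c.small_s hx.1)) (by rw [zero_add])
      · show Small (2 * c.e3) (c.tr _)
        rw [show c.tr ((x + x + c.s x) / 3) = c.tr x by
          rw [div_eq_inv_mul, c.tr_mul_fixed (by rw [map_inv₀, map_ofNat]), map_add, map_add,
            c.tr_s]
          field_simp [c.three_ne_zero]
          ring]
        exact hx.2
    refine ⟨by rw [e]; exact hA a, by rw [e]; exact hB b, ⟨_, hC hx, ?_⟩, by rw [e]; exact hA d⟩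
    rw [e, ex, map_mul, c.s_M]
    ring
  obtain ⟨v, hv, hvv⟩ := Radii.exists_of_inBox c.isBox_H hV
  refine ⟨v, hv, Units.ext ?_⟩
  have e1 : u.val = 1 + X := (add_sub_cancel _ _).symm
  have e2 : (c.sMap u).val = 1 + Y := by
    show _ = 1 + (u.val - 1).map c.s
    rw [← sMap_sub_one, add_sub_cancel]
  have hn' : u.val * (c.sMap u).val * (c.sMap u).val.map c.s = 1 := congrArg Units.val hn
  have e3 : v.val = (3 : Lw)⁻¹ • (1 + u.val + u.val * (c.sMap u).val) := by
    have h1 : (1 : M₂w) = (3 : Lw)⁻¹ • (1 + 1 + 1 : M₂w) := by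
      rw [show (1 + 1 + 1 : M₂w) = (3 : Lw) • (1 : M₂w) by
        rw [show (3 : Lw) = 1 + 1 + 1 by norm_num, add_smul, add_smul, one_smul], smul_smul,
        inv_mul_cancel₀ c.three_ne_zero, one_smul]
    rw [hvv, e1, e2]
    conv_lhs => rw [h1, ← smul_add, ← smul_add]
    congr 1
    noncomm_ring
  have e4 : (c.sMap v).val = (3 : Lw)⁻¹ •
      (1 + (c.sMap u).val + (c.sMap u).val * (c.sMap u).val.map c.s) := by
    show v.val.map c.s = _
    rw [e3]
    refine Matrix.ext fun i j => ?_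
    fin_cases i <;> fin_cases j <;>
      simp [Matrix.mul_apply, Fin.sum_univ_two, map_ofNat] <;> ring
  rw [Units.val_mul, e3, e4, Matrix.mul_smul, mul_add, mul_add, mul_one, ← mul_assoc, hn']
  congr 1
  abel

end LocChar

end FermatAgent.LTG.Fixed

end
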