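import Mathlib
import Fermat.Agent.LT.TF.Local.Abstract

set_option autoImplicit false

/-!
# Twisted classes modulo a group with cube roots of norms

An element of `U` of norm one only splits in a larger group `H` normalising `U`; the twisted classes
modulo `U` are then pairs of a fixed class and a class of `H` with fixed image modulo `U`.
-/

namespace FermatAgent.LTG.Fixed

open FermatAgent.LT.TF (nm nm_conj nm_of_fixed sigma_nm IsTorus twistedSet)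

variable {G : Type*} [Group G]

/-- The hypotheses on the two groups. -/
structure SliceHyp (σ : MulAut G) (U H : Subgroup G) : Prop where
  three : ∀ x, σ (σ (σ x)) = x
  stable : ∀ u ∈ U, σ u ∈ U
  le : U ≤ H
  normal : ∀ h ∈ H, ∀ u ∈ U, h⁻¹ * u * h ∈ U
  root : ∀ u ∈ U, ∃ c ∈ U, c * c * c = nm σ u
  uniq : ∀ c ∈ U, ∀ d ∈ U, c * c * c = d * d * d → c = d
  h90 : ∀ w ∈ U, nm σ w = 1 → ∃ v ∈ H, w = v * (σ v)⁻¹
  fixed : ∀ h ∈ H, σ h = h → h ∈ U

variable (σ : MulAut G) (U H : Subgroup G)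

/-- Classes of the elements of `H` fixed modulo `U`. -/
def hwSet : Set (G ⧸ U) := {q | ∃ h ∈ H, h⁻¹ * σ h ∈ U ∧ (h : G ⧸ U) = q}

/-- Classes of fixed elements carrying `γ` to the cube of a fixed element of `U`. -/
def cubeSet (γ : G) : Set (G ⧸ U) :=
  {q | ∃ y c, σ y = y ∧ (y : G ⧸ U) = q ∧ c ∈ U ∧ σ c = c ∧ c * c * c = y⁻¹ * γ * y}

variable {σ U H}

/-- The twisted classes are pairs of a fixed class and a class of `H` fixed modulo `U`. -/
theorem exists_slice (hS : SliceHyp σ U H) {T : Subgroup G} (hT : IsTorus σ T) {δ : G}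
    (hδ : δ ∈ T) (hcent : ∀ x, x * x * x = nm σ δ → x ∈ T) :
    ∃ Φ : G ⧸ U → G ⧸ U → G ⧸ U,
      Set.BijOn (fun p : (G ⧸ U) × (G ⧸ U) => Φ p.1 p.2)
        (cubeSet σ U (nm σ δ) ×ˢ hwSet σ U H) (twistedSet σ U δ) ∧
      (∀ g ∈ T, σ g = g → ∀ q ∈ cubeSet σ U (nm σ δ), ∀ r ∈ hwSet σ U H,
        g • q ∈ cubeSet σ U (nm σ δ) ∧ Φ (g • q) r = g • Φ q r) ∧
      ∀ q ∈ cubeSet σ U (nm σ δ), ∀ r ∈ hwSet σ U H, ∃ y c z h : G,
        σ y = y ∧ (y : G ⧸ U) = q ∧ c ∈ U ∧ σ c = c ∧ c * c * c = y⁻¹ * nm σ δ * y ∧ z ∈ T ∧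
        h ∈ H ∧ h⁻¹ * σ h ∈ U ∧ (h : G ⧸ U) = r ∧ Φ q r = ((z * y * h : G) : G ⧸ U) ∧
        (z * y * h)⁻¹ * δ * σ (z * y * h) = h⁻¹ * c * σ h := by
  classical
  set γ := nm σ δ with hγ
  -- the twisting element attached to a cube root
  have hz : ∀ t, t ∈ T → σ t = t → t * t * t = γ → ∃ z ∈ T, δ = z * t * (σ z)⁻¹ := by
    intro t htT hts h3
    obtain ⟨z, hzT, hz⟩ := hT.h90 (δ * t⁻¹) (mul_mem hδ (inv_mem htT)) (by
      rw [hT.nm_mul hδ (inv_mem htT), nm_of_fixed (c := t⁻¹) (by rw [map_inv, hts]), ← hγ, ← h3]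
      group)
    refine ⟨z, hzT, ?_⟩
    have h4 : δ = z * (σ z)⁻¹ * t := by
      calc δ = δ * t⁻¹ * t := by group
        _ = _ := by rw [hz]
    rw [h4, mul_assoc, hT.comm _ (inv_mem (hT.stable _ hzT)) _ htT]
    group
  let zf : G → G := fun t => if h : ∃ z ∈ T, δ = z * t * (σ z)⁻¹ then h.choose else 1
  have zf_spec : ∀ t, t ∈ T → σ t = t → t * t * t = γ →
      zf t ∈ T ∧ δ = zf t * t * (σ (zf t))⁻¹ := by
    intro t a b c
    have h := hz t a b c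
    rw [show zf t = h.choose from dif_pos h]
    exact h.choose_spec
  -- representatives
  let pick : G ⧸ U → G × G := fun q =>
    if h : q ∈ cubeSet σ U γ then (h.choose, h.choose_spec.choose) else 1
  have pick_spec : ∀ q ∈ cubeSet σ U γ, σ (pick q).1 = (pick q).1 ∧
      ((pick q).1 : G ⧸ U) = q ∧ (pick q).2 ∈ U ∧ σ (pick q).2 = (pick q).2 ∧
      (pick q).2 * (pick q).2 * (pick q).2 = (pick q).1⁻¹ * γ * (pick q).1 := by
    intro q hq
    rw [show pick q = (hq.choose, hq.choose_spec.choose) from dif_pos hq]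
    exact hq.choose_spec.choose_spec
  let tau : G ⧸ U → G := fun q => (pick q).1 * (pick q).2 * (pick q).1⁻¹
  have tau_eq : ∀ y c : G, σ y = y → c ∈ U → σ c = c → c * c * c = y⁻¹ * γ * y →
      tau (y : G ⧸ U) = y * c * y⁻¹ ∧ tau (y : G ⧸ U) ∈ T ∧
        σ (tau (y : G ⧸ U)) = tau (y : G ⧸ U) ∧
        tau (y : G ⧸ U) * tau (y : G ⧸ U) * tau (y : G ⧸ U) = γ := by
    intro y c hy hc hcs hc3
    have hmem : (y : G ⧸ U) ∈ cubeSet σ U γ := ⟨y, c, hy, rfl, hc, hcs, hc3⟩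
    obtain ⟨h1, h2, h3, h4, h5⟩ := pick_spec _ hmem
    set y' := (pick (y : G ⧸ U)).1
    set c' := (pick (y : G ⧸ U)).2
    have hu : y⁻¹ * y' ∈ U := QuotientGroup.eq.mp h2.symm
    have e : c' = (y⁻¹ * y')⁻¹ * c * (y⁻¹ * y') := by
      refine hS.uniq _ h3 _ (mul_mem (mul_mem (inv_mem hu) hc) hu) ?_
      calc c' * c' * c' = (y⁻¹ * y')⁻¹ * (y⁻¹ * γ * y) * (y⁻¹ * y') := by rw [h5]; group
        _ = (y⁻¹ * y')⁻¹ * (c * c * c) * (y⁻¹ * y') := by rw [hc3]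
        _ = _ := by group
    have e1 : tau (y : G ⧸ U) = y * c * y⁻¹ := by
      show y' * c' * y'⁻¹ = _
      rw [e]; group
    have h6 : y * c * y⁻¹ * (y * c * y⁻¹) * (y * c * y⁻¹) = γ := by
      calc y * c * y⁻¹ * (y * c * y⁻¹) * (y * c * y⁻¹) = y * (c * c * c) * y⁻¹ := by group
        _ = γ := by rw [hc3]; group
    rw [e1]
    exact ⟨rfl, hcent _ h6, by simp [hy, hcs], h6⟩
  have habs : ∀ {h u : G}, h ∈ H → u ∈ U → ((u * h : G) : G ⧸ U) = (h : G ⧸ U) := by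
    intro h u hh hu
    rw [show u * h = h * (h⁻¹ * u * h) by group, QuotientGroup.mk_mul_of_mem _ (hS.normal h hh u hu)]
  -- the map
  let Φ : G ⧸ U → G ⧸ U → G ⧸ U := fun q r => (zf (tau q) * (pick q).1) • r
  have Φ_eq : ∀ y c h : G, σ y = y → c ∈ U → σ c = c → c * c * c = y⁻¹ * γ * y → h ∈ H →
      Φ (y : G ⧸ U) (h : G ⧸ U) = ((zf (y * c * y⁻¹) * y * h : G) : G ⧸ U) := by
    intro y c h hy hc hcs hc3 hh
    obtain ⟨-, h2, -⟩ := pick_spec _ (⟨y, c, hy, rfl, hc, hcs, hc3⟩ : (y : G ⧸ U) ∈ cubeSet σ U γ)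
    show (zf (tau (y : G ⧸ U)) * (pick (y : G ⧸ U)).1) • (h : G ⧸ U) = _
    rw [(tau_eq y c hy hc hcs hc3).1, MulAction.Quotient.smul_coe, smul_eq_mul]
    have := congrArg (fun p : G ⧸ U => (zf (y * c * y⁻¹) * y) • p)
      (habs hh (QuotientGroup.eq.mp h2.symm))
    simp only [MulAction.Quotient.smul_coe, smul_eq_mul] at this
    rw [← this]
    congr 1
    group
  have value : ∀ y c z h : G, σ y = y → δ = z * (y * c * y⁻¹) * (σ z)⁻¹ →
      (z * y * h)⁻¹ * δ * σ (z * y * h) = h⁻¹ * c * σ h := by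
    intro y c z h hy hd
    rw [map_mul, map_mul, hy, hd]
    group
  have rep : ∀ q ∈ cubeSet σ U γ, ∀ r ∈ hwSet σ U H, ∃ y c z h : G,
      σ y = y ∧ (y : G ⧸ U) = q ∧ c ∈ U ∧ σ c = c ∧ c * c * c = y⁻¹ * γ * y ∧ z ∈ T ∧
      h ∈ H ∧ h⁻¹ * σ h ∈ U ∧ (h : G ⧸ U) = r ∧ Φ q r = ((z * y * h : G) : G ⧸ U) ∧
      z = zf (y * c * y⁻¹) ∧
      (z * y * h)⁻¹ * δ * σ (z * y * h) = h⁻¹ * c * σ h := by
    rintro q ⟨y, c, hy, rfl, hc, hcs, hc3⟩ r ⟨h, hh, hhw, rfl⟩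
    obtain ⟨e1, e2, e3, e4⟩ := tau_eq y c hy hc hcs hc3
    rw [e1] at e2 e3 e4
    obtain ⟨hzT, hd⟩ := zf_spec _ e2 e3 e4
    exact ⟨y, c, _, h, hy, rfl, hc, hcs, hc3, hzT, hh, hhw, rfl, Φ_eq y c h hy hc hcs hc3 hh, rfl,
      value y c _ h hy hd⟩
  refine ⟨Φ, ⟨?_, ?_, ?_⟩, ?_, ?_⟩
  · rintro ⟨q, r⟩ ⟨hq, hr⟩
    obtain ⟨y, c, z, h, -, -, hc, -, -, -, hh, hhw, -, hΦ, -, hv⟩ := rep q hq r hr
    refine ⟨z * y * h, hΦ.symm, ?_⟩
    rw [hv, show h⁻¹ * c * σ h = h⁻¹ * c * h * (h⁻¹ * σ h) by group]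
    exact mul_mem (hS.normal h hh c hc) hhw
  · rintro ⟨q, r⟩ ⟨hq, hr⟩ ⟨q', r'⟩ ⟨hq', hr'⟩ heq
    obtain ⟨y, c, z, h, hy, hyq, hc, hcs, hc3, hzT, hh, hhw, hhr, hΦ, hz0, hv⟩ := rep q hq r hr
    obtain ⟨y', c', z', h', hy', hyq', hc', hcs', hc3', hzT', hh', hhw', hhr', hΦ', hz0', hv'⟩ :=
      rep q' hq' r' hr'
    simp only at heq
    rw [hΦ, hΦ'] at heq
    set u := (z * y * h)⁻¹ * (z' * y' * h') with hu_def
    have hu : u ∈ U := QuotientGroup.eq.mp heq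
    set h1 := h * u
    have hh1 : h1 ∈ H := mul_mem hh (hS.le hu)
    have hx : z * y * h1 = z' * y' * h' := by simp only [h1, hu_def]; group
    have hv1 : h1⁻¹ * c * σ h1 = h'⁻¹ * c' * σ h' := by
      rw [← hv', ← hx]
      calc h1⁻¹ * c * σ h1 = u⁻¹ * (h⁻¹ * c * σ h) * σ u := by
            simp only [h1, map_mul]; group
        _ = _ := by rw [← hv]; simp only [h1, map_mul]; group
    have hn := congrArg (nm σ) hv1
    rw [nm_conj hS.three, nm_conj hS.three, nm_of_fixed hcs, nm_of_fixed hcs'] at hn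
    have hcc : h1⁻¹ * c * h1 = h'⁻¹ * c' * h' := by
      refine hS.uniq _ (hS.normal _ hh1 _ hc) _ (hS.normal _ hh' _ hc') ?_
      calc h1⁻¹ * c * h1 * (h1⁻¹ * c * h1) * (h1⁻¹ * c * h1) = h1⁻¹ * (c * c * c) * h1 := by group
        _ = h'⁻¹ * (c' * c' * c') * h' := hn
        _ = _ := by group
    obtain ⟨e1, e2, -⟩ := tau_eq y c hy hc hcs hc3
    obtain ⟨e1', e2', -⟩ := tau_eq y' c' hy' hc' hcs' hc3'
    rw [e1] at e2
    rw [e1'] at e2'
    have hττ : y * c * y⁻¹ = y' * c' * y'⁻¹ := by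
      calc y * c * y⁻¹ = z * (y * c * y⁻¹) * z⁻¹ := by rw [hT.comm _ hzT _ e2]; group
        _ = z * y * h1 * (h1⁻¹ * c * h1) * (z * y * h1)⁻¹ := by group
        _ = z' * (y' * c' * y'⁻¹) * z'⁻¹ := by rw [hcc, hx]; group
        _ = _ := by rw [hT.comm _ hzT' _ e2']; group
    have hzz : z' = z := by rw [hz0, hz0', hττ]
    rw [hzz, mul_assoc, mul_assoc] at hx
    have hx' : y * h1 = y' * h' := mul_left_cancel hx
    have hf : h1 * h'⁻¹ = y⁻¹ * y' := by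
      calc h1 * h'⁻¹ = y⁻¹ * (y * h1) * h'⁻¹ := by group
        _ = _ := by rw [hx']; group
    have hyy : (y : G ⧸ U) = y' := QuotientGroup.eq.mpr (by
      rw [← hf]
      refine hS.fixed _ (mul_mem hh1 (inv_mem hh')) ?_
      rw [hf, map_mul, map_inv, hy, hy'])
    refine Prod.ext (hyq.symm.trans (hyy.trans hyq')) ?_
    show r = r'
    have hu0 : y⁻¹ * y' ∈ U := QuotientGroup.eq.mp hyy
    calc r = (h1 : G ⧸ U) := by rw [← hhr, QuotientGroup.mk_mul_of_mem _ hu]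
      _ = ((y⁻¹ * y' * h' : G) : G ⧸ U) := by rw [← hf, inv_mul_cancel_right]
      _ = (h' : G ⧸ U) := habs hh' hu0
      _ = r' := hhr'
  · rintro _ ⟨x, rfl, hu⟩
    set u := x⁻¹ * δ * σ x with hu_def
    obtain ⟨c, hc, hc3⟩ := hS.root u hu
    have hsc : σ c = u⁻¹ * c * u := by
      refine hS.uniq _ (hS.stable _ hc) _ (mul_mem (mul_mem (inv_mem hu) hc) hu) ?_
      rw [← map_mul, ← map_mul, hc3, sigma_nm hS.three, ← hc3]
      group
    have hw : nm σ (c⁻¹ * u) = 1 := by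
      have : nm σ (c⁻¹ * u) = c⁻¹ * c⁻¹ * c⁻¹ * nm σ u := by
        simp only [nm, map_mul, map_inv, hsc]
        group
      rw [this, ← hc3]
      group
    obtain ⟨v, hv, hvw⟩ := hS.h90 _ (mul_mem (inv_mem hc) hu) hw
    have hsv : σ v = u⁻¹ * c * v := by
      have h1 : (σ v)⁻¹ = v⁻¹ * (c⁻¹ * u) := by rw [hvw]; group
      calc σ v = (σ v)⁻¹⁻¹ := (inv_inv _).symm
        _ = _ := by rw [h1]; group
    set x' := x * v with hx'
    set c' := v⁻¹ * c * v with hc'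
    have hcv : x'⁻¹ * δ * σ x' = c' := by
      calc x'⁻¹ * δ * σ x' = v⁻¹ * u * σ v := by rw [hx', map_mul, hu_def]; group
        _ = _ := by rw [hsv, hc']; group
    have hfix : σ c' = c' := by
      rw [hc', map_mul, map_mul, map_inv, hsc, hsv]
      group
    have hcU : c' ∈ U := hS.normal v hv c hc
    set t := x' * c' * x'⁻¹ with ht_def
    have hsx : σ x' = δ⁻¹ * x' * c' := by rw [← hcv]; group
    have h3 : t * t * t = γ := by
      have h0 := nm_conj hS.three x' δ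
      rw [hcv, nm_of_fixed hfix, ← hγ] at h0
      calc t * t * t = x' * (c' * c' * c') * x'⁻¹ := by rw [ht_def]; group
        _ = γ := by rw [h0]; group
    have htT : t ∈ T := hcent _ h3
    have hts : σ t = t := by
      have : σ t = δ⁻¹ * t * δ := by
        rw [ht_def, map_mul, map_mul, map_inv, hsx, hfix]
        group
      rw [this, hT.comm _ (inv_mem hδ) _ htT]
      group
    obtain ⟨hzT, hδz⟩ := zf_spec t htT hts h3
    set z := zf t
    set y := z⁻¹ * x' with hy_def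
    have hty : y⁻¹ * t * y = c' := by
      have : t * z = z * t := hT.comm _ htT _ hzT
      calc y⁻¹ * t * y = x'⁻¹ * (z * t) * z⁻¹ * x' := by rw [hy_def]; group
        _ = x'⁻¹ * t * x' := by rw [← this]; group
        _ = c' := by rw [ht_def]; group
    have hy : σ y = y := by
      rw [hy_def, map_mul, map_inv, hsx]
      calc (σ z)⁻¹ * (δ⁻¹ * x' * c') = (σ z)⁻¹ * (σ z * t⁻¹ * z⁻¹) * x' * c' := by
            rw [hδz]; group
        _ = t⁻¹ * (z⁻¹ * x' * c') := by group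
        _ = t⁻¹ * (y * (y⁻¹ * t * y)) := by rw [hty, hy_def]
        _ = z⁻¹ * x' := by rw [hy_def]; group
    have hyc : c' * c' * c' = y⁻¹ * γ * y := by rw [← hty, ← h3]; group
    refine ⟨((y : G ⧸ U), ((v⁻¹ : G) : G ⧸ U)),
      ⟨⟨y, c', hy, rfl, hcU, hfix, hyc⟩, ⟨v⁻¹, inv_mem hv, ?_, rfl⟩⟩, ?_⟩
    · rw [inv_inv, map_inv, ← hvw]
      exact mul_mem (inv_mem hc) hu
    · show Φ (y : G ⧸ U) ((v⁻¹ : G) : G ⧸ U) = _
      rw [Φ_eq y c' v⁻¹ hy hcU hfix hyc (inv_mem hv),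
        show y * c' * y⁻¹ = t by rw [← hty]; group]
      congr 1
      simp only [z, hy_def, hx']
      group
  · intro g hg hgs q hq r hr
    obtain ⟨y, c, hy, rfl, hc, hcs, hc3⟩ := hq
    obtain ⟨h, hh, hhw, rfl⟩ := hr
    obtain ⟨e1, e2, e3, e4⟩ := tau_eq y c hy hc hcs hc3
    rw [e1] at e2 e3 e4
    obtain ⟨hzT, -⟩ := zf_spec _ e2 e3 e4
    have hgy : σ (g * y) = g * y := by rw [map_mul, hgs, hy]
    have hgγ : g⁻¹ * γ * g = γ := by
      rw [mul_assoc, hT.comm _ (hT.nm_mem hδ) _ hg, inv_mul_cancel_left]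
    have hgc : c * c * c = (g * y)⁻¹ * γ * (g * y) := by
      rw [hc3]
      calc y⁻¹ * γ * y = y⁻¹ * (g⁻¹ * γ * g) * y := by rw [hgγ]
        _ = _ := by group
    have hgt : g * y * c * (g * y)⁻¹ = y * c * y⁻¹ := by
      calc g * y * c * (g * y)⁻¹ = g * (y * c * y⁻¹) * g⁻¹ := by group
        _ = _ := by rw [hT.comm _ hg _ e2]; group
    refine ⟨⟨g * y, c, hgy, rfl, hc, hcs, hgc⟩, ?_⟩
    rw [MulAction.Quotient.smul_coe, smul_eq_mul, Φ_eq (g * y) c h hgy hc hcs hgc hh,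
      Φ_eq y c h hy hc hcs hc3 hh, MulAction.Quotient.smul_coe, smul_eq_mul, hgt]
    congr 1
    calc zf (y * c * y⁻¹) * (g * y) * h = (zf (y * c * y⁻¹) * g) * y * h := by group
      _ = _ := by rw [hT.comm _ hzT _ hg]; group
  · intro q hq r hr
    obtain ⟨y, c, z, h, a1, a2, a3, a4, a5, a6, a7, a8, a9, a10, -, a11⟩ := rep q hq r hr
    exact ⟨y, c, z, h, a1, a2, a3, a4, a5, a6, a7, a8, a9, a10, a11⟩

end FermatAgent.LTG.Fixed
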