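import Mathlib
import Fermat.Agent.LT.General.Local.Fixed.Char
import Fermat.Agent.LT.General.Local.Fixed.Slice
import Fermat.Agent.LT.Descent.Classes.Matrix2

set_option autoImplicit false

/-!
# The projective box groups and their character
-/

noncomputable section

open NumberField IsDedekindDomain WithZero
open FermatAgent.LT (GLv)
open scoped MatrixGroups

namespace FermatAgent.LTG.Fixed

local notation "Pm" => Matrix.ProjGenLinGroup.mk

variable {L : Type*} [Field L] [NumberField L] {w : HeightOneSpectrum (𝓞 L)}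

local notation "Lw" => HeightOneSpectrum.adicCompletion L w
local notation "M₂w" => Matrix (Fin 2) (Fin 2) (HeightOneSpectrum.adicCompletion L w)

namespace LocChar

variable (c : LocChar w)

/-- The image of the deep group. -/
def pU : Subgroup PGL(2, Lw) := c.grpU.map Pm

/-- The image of the group of the level. -/
def pJ : Subgroup PGL(2, Lw) := c.grpJ.map Pm

/-- The image of the normalising group. -/
def pH : Subgroup PGL(2, Lw) := c.grpH.map Pm

/-- The automorphism of the projective group. -/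
abbrev pS : MulAut PGL(2, Lw) := LT.Classes.pGal c.s

theorem pS_mk (g : GLv w) : c.pS (Pm g) = Pm (c.sMap g) := LT.Classes.pGal_mk _ g

/-- Two representatives of a projective class differ by a scalar. -/
theorem exists_smul_of_mk_eq {g g' : GLv w} (h : Pm g = Pm g') :
    ∃ z : Lw, z ≠ 0 ∧ g'.val = z • g.val := by
  obtain ⟨z, hz⟩ := LT.Classes.mk_eq_mk_iff_smul.mp h
  refine ⟨z, fun h0 => g'.ne_zero ?_, hz.symm⟩
  rw [← hz, h0, zero_smul]

/-- A scalar relating two elements of a box group is congruent to one. -/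
theorem scalar_mem {A B C : AddSubgroup Lw} (hAB : c.IsBox A B C) {g g' : GLv w}
    (hg : g ∈ c.boxGrp hAB) (hg' : g' ∈ c.boxGrp hAB) {z : Lw} (hz : g'.val = z • g.val) :
    z - 1 ∈ A ∧ Small c.eH (z - 1) := by
  obtain ⟨a, -, -, -⟩ := hg
  obtain ⟨a', -, -, -⟩ := hg'
  rw [Matrix.sub_apply, Matrix.one_apply_eq] at a a'
  rw [hz, Matrix.smul_apply, smul_eq_mul] at a'
  set u := g.val 0 0
  have hu1 := hAB.small_A _ a
  have hu : Valued.v u = 1 := by
    refine (Valuation.map_eq_of_sub_lt _ ?_).trans (map_one Valued.v)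
    rw [map_one]
    refine hu1.trans_lt ?_
    rw [← exp_zero, exp_lt_exp]
    have := c.one_le_eH
    omega
  have hu0 : u ≠ 0 := fun h => by rw [h, map_zero] at hu; exact zero_ne_one hu
  have hd := sub_mem a' a
  have hds := hAB.small_A _ hd
  have e : z - 1 = (z * u - 1 - (u - 1)) - (z * u - 1 - (u - 1)) * (u - 1) / u := by
    field_simp; ring
  have hs : Small c.e1 ((z * u - 1 - (u - 1)) * (u - 1) / u) := by
    rw [Small, map_div₀, hu, div_one]
    exact hds.mul_le hu1 (by have := c.e1_le; omega)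
  rw [e]
  exact ⟨sub_mem hd (hAB.mem_A _ hs),
    hds.sub (hs.anti (by have := c.eA_le_e1; have := c.eH_add_e3; omega))⟩

open Classical in
/-- The character on the projective group of the level. -/
def chiP (x : PGL(2, Lw)) : ℂ :=
  if h : ∃ g ∈ c.grpJ, Pm g = x then c.psi (h.choose.val 0 1) else 0

theorem inBox_entry {g : GLv w} (hg : g ∈ c.grpJ) :
    g.val 0 1 ∈ c.boxB ∧ g.val 0 0 - 1 ∈ c.boxA ∧ g.val 1 1 - 1 ∈ c.boxA := by
  obtain ⟨a, b, -, d⟩ := hg
  simp only [Matrix.sub_apply, Matrix.one_apply_eq] at a d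
  rw [Matrix.sub_apply, Matrix.one_apply_ne (by decide), sub_zero] at b
  exact ⟨b, a, d⟩

theorem chiP_mk {g : GLv w} (hg : g ∈ c.grpJ) : c.chiP (Pm g) = c.psi (g.val 0 1) := by
  have h : ∃ g' ∈ c.grpJ, Pm g' = Pm g := ⟨g, hg, rfl⟩
  rw [chiP, dif_pos h]
  obtain ⟨h1, h2⟩ := h.choose_spec
  set g' := h.choose
  obtain ⟨z, -, hz⟩ := exists_smul_of_mk_eq h2.symm
  have hzA := (c.scalar_mem c.isBox_J hg h1 hz).1
  obtain ⟨hb, -, -⟩ := c.inBox_entry hg
  have hb' : Small 0 (g.val 0 1) := hb.1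
  rw [hz, Matrix.smul_apply, smul_eq_mul,
    show z * g.val 0 1 = g.val 0 1 + (z - 1) * g.val 0 1 by ring,
    c.psi_add _ _ hb' (hzA.1.mul hb'), hzA.2 _ hb, mul_one]

theorem chiP_mul {x y : PGL(2, Lw)} (hx : x ∈ c.pJ) (hy : y ∈ c.pJ) :
    c.chiP (x * y) = c.chiP x * c.chiP y := by
  obtain ⟨g, hg, rfl⟩ := hx
  obtain ⟨h, hh, rfl⟩ := hy
  rw [← map_mul, c.chiP_mk hg, c.chiP_mk hh, c.chiP_mk (mul_mem hg hh)]
  obtain ⟨hb, ha, -⟩ := c.inBox_entry hg
  obtain ⟨hb', -, hd'⟩ := c.inBox_entry hh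
  have e : (g * h).val 0 1 = (g.val 0 1 + h.val 0 1) +
      ((g.val 0 0 - 1) * h.val 0 1 + (h.val 1 1 - 1) * g.val 0 1) := by
    rw [Units.val_mul, Matrix.mul_apply, Fin.sum_univ_two]
    ring
  rw [e, c.psi_add _ _ (hb.1.add hb'.1) ((ha.1.mul hb'.1).add (hd'.1.mul hb.1)),
    c.psi_add _ _ hb.1 hb'.1, c.psi_add _ _ (ha.1.mul hb'.1) (hd'.1.mul hb.1), ha.2 _ hb',
    hd'.2 _ hb, mul_one, mul_one]

theorem chiP_pS {x : PGL(2, Lw)} (hx : x ∈ c.pJ) : c.chiP (c.pS x) = c.chiP x := by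
  obtain ⟨g, hg, rfl⟩ := hx
  rw [pS_mk, c.chiP_mk (c.sMap_grpJ hg), c.chiP_mk hg]
  exact c.psi_gal _ (c.inBox_entry hg).1.1

theorem pU_le_pJ : c.pU ≤ c.pJ := Subgroup.map_mono c.grpU_le_grpJ

theorem pS_mem_pU {x : PGL(2, Lw)} (hx : x ∈ c.pU) : c.pS x ∈ c.pU := by
  obtain ⟨g, hg, rfl⟩ := hx
  exact ⟨_, c.sMap_grpU hg, (c.pS_mk g).symm⟩

theorem pS_mem_pJ {x : PGL(2, Lw)} (hx : x ∈ c.pJ) : c.pS x ∈ c.pJ := by
  obtain ⟨g, hg, rfl⟩ := hx
  exact ⟨_, c.sMap_grpJ hg, (c.pS_mk g).symm⟩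

/-- An element of a box group with fixed class has a fixed representative. -/
theorem exists_fixed_rep {A B C : AddSubgroup Lw} (hAB : c.IsBox A B C) {g : GLv w}
    (hg : g ∈ c.boxGrp hAB) (hs : Pm (c.sMap g) = Pm g) :
    ∃ g' ∈ c.boxGrp hAB, Pm g' = Pm g ∧ c.sMap g' = g' := by
  obtain ⟨a, -, -, -⟩ := id hg
  rw [Matrix.sub_apply, Matrix.one_apply_eq] at a
  obtain ⟨z, hz0, hz⟩ := exists_smul_of_mk_eq hs
  set u := g.val 0 0
  obtain ⟨p, hp, hpv⟩ := Radii.exists_of_inBox hAB (X := (u - 1) • (1 : M₂w))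
    ⟨by simpa using a, by simp, ⟨0, zero_mem _, by simp⟩, by simpa using a⟩
  have hpu : p.val = u • (1 : M₂w) := by
    rw [hpv, sub_smul, one_smul, add_sub_cancel]
  refine ⟨g * p⁻¹, mul_mem hg (inv_mem hp), ?_, ?_⟩
  · rw [map_mul, map_inv, mul_eq_left, inv_eq_one, ← map_one Pm]
    refine LT.Classes.mk_eq_mk_iff_smul.mpr ⟨u⁻¹, ?_⟩
    have hu0 : u ≠ 0 := fun h => p.ne_zero (by rw [hpu, h, zero_smul])
    rw [hpu, smul_smul, inv_mul_cancel₀ hu0, one_smul, Units.val_one]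
  · have hsp : (c.sMap p).val = c.s u • (1 : M₂w) := by
      show p.val.map c.s = _
      rw [hpu]
      refine Matrix.ext fun i j => ?_
      fin_cases i <;> fin_cases j <;> simp
    have hsu : z * c.s u = u := (congrFun (congrFun hz 0) 0).symm
    rw [map_mul, map_inv]
    refine mul_inv_eq_iff_eq_mul.mpr (Units.ext ?_)
    rw [Units.val_mul, hsp, Matrix.mul_smul, mul_one]
    have e1 : (g * p⁻¹).val = u⁻¹ • g.val := by
      have hu0 : u ≠ 0 := fun h => p.ne_zero (by rw [hpu, h, zero_smul])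
      have h2 : (g * p⁻¹).val * p.val = g.val := by
        rw [← Units.val_mul, inv_mul_cancel_right]
      rw [hpu, Matrix.mul_smul, mul_one] at h2
      rw [← h2, smul_smul, inv_mul_cancel₀ hu0, one_smul]
    rw [e1, smul_smul, hz, smul_smul]
    have hu0 : u ≠ 0 := fun h => p.ne_zero (by rw [hpu, h, zero_smul])
    have hsu0 : c.s u ≠ 0 := (map_ne_zero _).mpr hu0
    rw [show c.s u * u⁻¹ * z = (z * c.s u) * u⁻¹ by ring, hsu, mul_inv_cancel₀ hu0, one_smul]

/-- An element commuting with the deep group is scalar. -/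
theorem mem_center_of_commute {e : GLv w} (h : ∀ g ∈ c.grpU, g * e = e * g) :
    e ∈ Subgroup.center (GLv w) := by
  have h3 := c.three_ne_zero
  obtain ⟨p, hp, hpv⟩ := Radii.exists_of_inBox c.isBox_J₀ (X := !![0, 3; 0, 0])
    ⟨zero_mem _, c.small_e3_mem_boxB₀ c.small_three, ⟨0, zero_mem _, by simp⟩, zero_mem _⟩
  obtain ⟨q, hq, hqv⟩ := Radii.exists_of_inBox c.isBox_J₀ (X := !![0, 0; c.M * (3 * 3), 0])
    ⟨zero_mem _, zero_mem _, ⟨3 * 3, c.small_two_e3_mem_boxC
      (c.small_three.mul_le c.small_three (by omega)), rfl⟩, zero_mem _⟩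
  have ep := congrArg Units.val (h p hp)
  have eq' := congrArg Units.val (h q hq)
  rw [Units.val_mul, Units.val_mul, hpv] at ep
  rw [Units.val_mul, Units.val_mul, hqv] at eq'
  have a := congrFun (congrFun ep 0) 0
  have b := congrFun (congrFun ep 0) 1
  have d := congrFun (congrFun eq' 0) 0
  simp [Matrix.mul_apply, Fin.sum_univ_two, h3, c.M_ne_zero] at a b d
  have hd : e.val 0 0 = e.val 1 1 :=
    mul_left_cancel₀ h3 (by linear_combination -b)
  rw [Matrix.GeneralLinearGroup.center_eq_range_scalar]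
  have h0 : e.val 0 0 ≠ 0 := fun h0 => e.det_ne_zero (by
    rw [Matrix.det_fin_two, h0, a, zero_mul, mul_zero, sub_zero])
  refine ⟨Units.mk0 _ h0, Units.ext (Matrix.ext fun i j => ?_)⟩
  fin_cases i <;> fin_cases j <;>
    simp [Matrix.GeneralLinearGroup.scalar, a, d, hd]

/-- A central cube of the deep group has a central cube root. -/
theorem exists_central_root {z : GLv w} (hz : z ∈ Subgroup.center (GLv w))
    (hzX : c.InBox c.boxA c.boxB₀ c.boxC ((3 : Lw)⁻¹ • (z.val - 1))) :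
    ∃ e ∈ c.grpU, e ∈ Subgroup.center (GLv w) ∧ e * e * e = z := by
  obtain ⟨e, he, he3⟩ := Radii.exists_cube_root_grp c.isBox_J₀ (fun _ => c.small_boxA) hzX
  refine ⟨e, he, c.mem_center_of_commute fun g hg => ?_, he3⟩
  have := Radii.cube_unique_grp c.isBox_J₀ (fun _ => c.small_boxA)
    (mul_mem (mul_mem hg he) (inv_mem hg)) he (by
      calc g * e * g⁻¹ * (g * e * g⁻¹) * (g * e * g⁻¹) = g * (e * e * e) * g⁻¹ := by group
        _ = e * e * e := by
          rw [he3, Subgroup.mem_center_iff.mp hz g]; group)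
  exact mul_inv_eq_iff_eq_mul.mp this

theorem pU_uniq : ∀ x ∈ c.pU, ∀ y ∈ c.pU, x * x * x = y * y * y → x = y := by
  rintro _ ⟨g, hg, rfl⟩ _ ⟨h, hh, rfl⟩ e
  rw [← map_mul, ← map_mul, ← map_mul, ← map_mul] at e
  set z := (h * h * h)⁻¹ * (g * g * g) with hzdef
  have hz : z ∈ Subgroup.center (GLv w) := by
    rw [← Matrix.ProjGenLinGroup.mk_eq_one, hzdef, map_mul, map_inv, e, inv_mul_cancel]
  have hX : c.InBox c.boxA c.boxB₀ c.boxC ((3 : Lw)⁻¹ • (z.val - 1)) := by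
    have h1 := Radii.cube_sub_one c.isBox_J₀ (fun _ => c.small_boxA) hg
    have h2 := Radii.cube_sub_one c.isBox_J₀ (fun _ => c.small_boxA) hh
    have h3 : ((h * h * h)⁻¹).val - 1 ∈ {X : M₂w | c.InBox c.boxA c.boxB₀ c.boxC X} :=
      inv_mem (mul_mem (mul_mem hh hh) hh)
    have hd := h1.sub h2
    rw [show (3 : Lw)⁻¹ • (z.val - 1) =
        ((3 : Lw)⁻¹ • ((g * g * g).val - 1) - (3 : Lw)⁻¹ • ((h * h * h).val - 1)) +
          (((h * h * h)⁻¹).val - 1) *
            ((3 : Lw)⁻¹ • ((g * g * g).val - 1) - (3 : Lw)⁻¹ • ((h * h * h).val - 1)) by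
      rw [← smul_sub, Matrix.mul_smul, ← smul_add]
      congr 1
      rw [sub_mul, one_mul, add_sub_cancel, sub_sub_sub_cancel_right, mul_sub, ← Units.val_mul,
        ← Units.val_mul, inv_mul_cancel, Units.val_one]]
    exact hd.add (c.isBox_J₀.of_tiny ((c.isBox_J₀.isWide h3).mul (c.isBox_J₀.isWide hd)))
  obtain ⟨r, hr, hrz, hr3⟩ := c.exists_central_root hz hX
  have hc : ∀ x, x * r = r * x := fun x => Subgroup.mem_center_iff.mp hrz x
  have := Radii.cube_unique_grp c.isBox_J₀ (fun _ => c.small_boxA) hg (mul_mem hh hr) (by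
    calc g * g * g = h * h * h * z := by rw [hzdef, mul_inv_cancel_left]
      _ = h * h * h * (r * r * r) := by rw [hr3]
      _ = h * r * (h * r) * (h * r) := by
          rw [← pow_three', ← pow_three', ← pow_three', (show Commute h r from hc h).mul_pow])
  rw [this, map_mul, Matrix.ProjGenLinGroup.mk_eq_one.mpr hrz, mul_one]

theorem pU_h90 : ∀ x ∈ c.pU, LT.TF.nm c.pS x = 1 →
    ∃ v ∈ c.pH, x = v * (c.pS v)⁻¹ := by
  rintro _ ⟨u, hu, rfl⟩ hn
  rw [LT.TF.nm, pS_mk, pS_mk, ← map_mul, ← map_mul, Matrix.ProjGenLinGroup.mk_eq_one] at hn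
  set G := c.sMap
  obtain ⟨r, hr, hr3⟩ := c.exists_cube_norm hu
  set z := u * G u * G (G u)
  have hrz : r ∈ Subgroup.center (GLv w) := by
    refine c.mem_center_of_commute fun g hg => ?_
    have := Radii.cube_unique_grp c.isBox_J₀ (fun _ => c.small_boxA)
      (mul_mem (mul_mem hg hr) (inv_mem hg)) hr (by
        calc g * r * g⁻¹ * (g * r * g⁻¹) * (g * r * g⁻¹) = g * (r * r * r) * g⁻¹ := by group
          _ = r * r * r := by rw [hr3, Subgroup.mem_center_iff.mp hn g]; group)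
    exact mul_inv_eq_iff_eq_mul.mp this
  have hGz : G z = z := by
    calc G z = G u * G (G u) * u := by
          simp only [z, G, map_mul, sMap_three]
      _ = u⁻¹ * (z * u) := by simp only [z]; group
      _ = u⁻¹ * (u * z) := by rw [Subgroup.mem_center_iff.mp hn u]
      _ = z := by group
  have hGr : G r = r := Radii.cube_unique_grp c.isBox_J₀ (fun _ => c.small_boxA)
    (c.sMap_grpU hr) hr (by rw [← map_mul, ← map_mul, hr3, hGz])
  set u₁ := u * r⁻¹ with hu₁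
  have hN : u₁ * G u₁ * G (G u₁) = 1 := by
    have hi : ∀ g, g * r⁻¹ = r⁻¹ * g := Subgroup.mem_center_iff.mp (inv_mem hrz)
    calc u₁ * G u₁ * G (G u₁) = u * r⁻¹ * (G u * r⁻¹) * (G (G u) * r⁻¹) := by
          simp only [hu₁, map_mul, map_inv, hGr]
      _ = u * (r⁻¹ * G u) * (r⁻¹ * G (G u)) * r⁻¹ := by group
      _ = u * (G u * r⁻¹) * (G (G u) * r⁻¹) * r⁻¹ := by rw [← hi, ← hi]
      _ = u * G u * (r⁻¹ * G (G u)) * r⁻¹ * r⁻¹ := by group
      _ = u * G u * (G (G u) * r⁻¹) * r⁻¹ * r⁻¹ := by rw [← hi]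
      _ = z * (r * r * r)⁻¹ := by simp only [z]; group
      _ = 1 := by rw [hr3, mul_inv_cancel]
  obtain ⟨v, hv, hv'⟩ := c.exists_h90 (mul_mem hu (inv_mem hr)) hN
  refine ⟨Pm v, ⟨v, hv, rfl⟩, ?_⟩
  rw [pS_mk, eq_mul_inv_iff_mul_eq]
  conv_rhs => rw [hv', map_mul, map_mul, map_inv, Matrix.ProjGenLinGroup.mk_eq_one.mpr hrz]
  rw [inv_one, mul_one]

/-- The groups satisfy the hypotheses of the slice lemma. -/
theorem sliceHyp : SliceHyp c.pS c.pU c.pH where
  three x := by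
    induction x using Matrix.ProjGenLinGroup.induction_on with | mk g => ?_
    rw [pS_mk, pS_mk, pS_mk, sMap_three]
  stable _ hu := c.pS_mem_pU hu
  le := Subgroup.map_mono c.grpU_le_grpH
  normal := by
    rintro _ ⟨h, hh, rfl⟩ _ ⟨u, hu, rfl⟩
    refine ⟨h⁻¹ * u * h, ?_, by rw [map_mul, map_mul, map_inv]⟩
    simpa using c.normal_grpU (inv_mem hh) hu
  root := by
    rintro _ ⟨u, hu, rfl⟩
    obtain ⟨r, hr, hr3⟩ := c.exists_cube_norm hu
    refine ⟨Pm r, ⟨r, hr, rfl⟩, ?_⟩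
    rw [LT.TF.nm, pS_mk, pS_mk, ← map_mul, ← map_mul, hr3, map_mul, map_mul]
  uniq := c.pU_uniq
  h90 := c.pU_h90
  fixed := by
    rintro _ ⟨h, hh, rfl⟩ hs
    rw [pS_mk] at hs
    obtain ⟨h', hh', e, hs'⟩ := c.exists_fixed_rep c.isBox_H hh hs
    exact ⟨h', c.fixed_grpH hh' hs', e⟩

end LocChar

end FermatAgent.LTG.Fixed

end
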