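import Mathlib
import Fermat.Agent.LT.General.Local.Fixed.Proj

set_option autoImplicit false

/-!
# The character along the normalising group, and its averages
-/

noncomputable section

open NumberField IsDedekindDomain WithZero
open FermatAgent.LT (GLv)
open scoped MatrixGroups

namespace FermatAgent.LTG.Fixed

local notation "Pm" => Matrix.ProjGenLinGroup.mk

variable {L : Type*} [Field L] [NumberField L] {w : HeightOneSpectrum (𝓞 L)}

local notation "Lw" => HeightOneSpectrum.adicCompletion L w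
local notation "M₂w" => Matrix (Fin 2) (Fin 2) (HeightOneSpectrum.adicCompletion L w)

namespace LocChar

variable (c : LocChar w)

/-- Conjugation by the normalising group keeps the character of a fixed element. -/
theorem chiP_conj {x h : PGL(2, Lw)} (hx : x ∈ c.pU) (hs : c.pS x = x) (hh : h ∈ c.pH) :
    h⁻¹ * x * h ∈ c.pU ∧ c.chiP (h⁻¹ * x * h) = c.chiP x := by
  refine ⟨c.sliceHyp.normal h hh x hx, ?_⟩
  obtain ⟨g₀, hg₀, rfl⟩ := hx
  obtain ⟨g, hg, hgg, hgs⟩ := c.exists_fixed_rep c.isBox_J₀ hg₀ (by rw [← pS_mk, hs])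
  obtain ⟨k₀, hk₀, rfl⟩ := hh
  rw [← hgg, ← map_inv, ← map_mul, ← map_mul]
  set k := k₀⁻¹
  have hk : k ∈ c.grpH := inv_mem hk₀
  have hcj : k * g * k₀ ∈ c.grpU := by
    have := c.normal_grpU hk hg
    simpa [k] using this
  rw [c.chiP_mk (c.grpU_le_grpJ hcj), c.chiP_mk (c.grpU_le_grpJ hg),
    show k * g * k₀ = k * g * k⁻¹ by simp [k]]
  obtain ⟨hb, ha, hd⟩ := c.inBox_entry (c.grpU_le_grpJ hg)
  have hfb : c.s (g.val 0 1) = g.val 0 1 := congrArg (fun z : GLv w => z.val 0 1) hgs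
  obtain ⟨A00, A01, ⟨x, hx, A10⟩, A11⟩ := id hk
  obtain ⟨-, -, ⟨y, hy, B10⟩, -⟩ := id hg
  obtain ⟨-, I01, -, I11⟩ := c.isBox_H.isWide (inv_mem hk)
  simp only [mem_smallSub, Matrix.sub_apply, Matrix.one_apply_eq] at I11
  rw [mem_smallSub, Matrix.sub_apply, Matrix.one_apply_ne (by decide), sub_zero] at I01
  simp only [Matrix.sub_apply, Matrix.one_apply_eq] at A00 A11
  rw [Matrix.sub_apply, Matrix.one_apply_ne (by decide), sub_zero] at A01 A10 B10
  obtain ⟨hα, -, htα⟩ := c.mem_boxAp.mp A00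
  obtain ⟨hδ, -, htδ⟩ := c.mem_boxAp.mp A11
  set α := k.val 0 0 - 1
  set δ := k.val 1 1 - 1
  set γ := k.val 0 1
  set a := g.val 0 0 - 1
  set b := g.val 0 1
  set d := g.val 1 1 - 1
  have hγ0 : Small 0 γ := A01.1
  have hb0 : Small 0 b := hb.1
  have he : (k * g * k⁻¹).val 0 1 = b + (α * b - δ * b + (γ * d - γ * a)) +
      ((γ * (c.M * y) - b * (c.M * x)) * k⁻¹.val 0 1 +
        (α * b - δ * b + (γ * d - γ * a)) * (k⁻¹.val 1 1 - 1)) := by
    have hid : k.val * k⁻¹.val = 1 := by rw [← Units.val_mul, mul_inv_cancel, Units.val_one]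
    have i1 := congrFun (congrFun hid 0) 1
    have i2 := congrFun (congrFun hid 1) 1
    simp only [Matrix.mul_apply, Fin.sum_univ_two, Matrix.one_apply_ne (show (0 : Fin 2) ≠ 1 by decide),
      Matrix.one_apply_eq] at i1 i2
    rw [Units.val_mul, Units.val_mul, Matrix.mul_apply, Fin.sum_univ_two, Matrix.mul_apply,
      Matrix.mul_apply, Fin.sum_univ_two, Fin.sum_univ_two, B10]
    rw [A10] at i2
    simp only [α, δ, γ, a, b, d]
    linear_combination (g.val 0 0) * i1 + (g.val 0 1) * i2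
  have hab : Small c.eH (α * b - δ * b + (γ * d - γ * a)) :=
    ((hα.mul_le hb0 (by omega)).sub (hδ.mul_le hb0 (by omega))).add
      ((hγ0.mul_le (c.small_boxA hd) (by have := c.eH_add_e3; omega)).sub
        (hγ0.mul_le (c.small_boxA ha) (by have := c.eH_add_e3; omega)))
  have hrest : Small c.e1 ((γ * (c.M * y) - b * (c.M * x)) * k⁻¹.val 0 1 +
      (α * b - δ * b + (γ * d - γ * a)) * (k⁻¹.val 1 1 - 1)) := by
    have h2 : c.e1 ≤ c.e2 := by have := c.e1_le_e2; omega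
    exact (((((hγ0.mul (c.small_M.mul hy.1))).anti (m := c.e1) (by omega)).sub
      ((hb0.mul (c.small_M.mul hx.1)).anti (m := c.e1) (by omega))).mul_le I01
        (k := c.e1) (by omega)) |>.add
        (hab.mul_le I11 (by have := c.e1_le; omega))
  have h0 : Small 0 (b + (α * b - δ * b + (γ * d - γ * a))) := hb0.add (hab.anti (Nat.zero_le _))
  rw [c.psi_congr h0 (by rw [he, add_sub_cancel_left]; exact hrest),
    c.psi_add _ _ hb0 (hab.anti (Nat.zero_le _))]
  have hA : ∀ {z}, Small c.eH z → c.tr z / 3 ∈ c.boxA → c.psi (z * b) = 1 := fun {z} hz hzt => by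
    have hb3 : c.tr b / 3 = b := by rw [c.tr_fixed hfb, mul_div_cancel_left₀ _ c.three_ne_zero]
    rw [← hb3, ← c.psi_tr_third_mul (hz.anti (Nat.zero_le _))
      ((c.small_tr hz).anti c.e3_le_eH) hb]
    exact hzt.2 _ hb
  have p1 := (hα.anti (Nat.zero_le _)).mul hb0
  have p2 := (hδ.anti (Nat.zero_le _)).mul hb0
  have p3 := hγ0.mul hd.1
  have p4 := hγ0.mul ha.1
  rw [c.psi_add _ _ (p1.sub p2) (p3.sub p4), c.psi_sub p1 p2, c.psi_sub p3 p4, hA hα htα,
    hA hδ htδ, mul_comm γ d, mul_comm γ a, hd.2 _ A01, ha.2 _ A01]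
  norm_num

/-- The character is trivial on the coboundaries of the normalising group. -/
theorem chiP_twist {h : PGL(2, Lw)} (hh : h ∈ c.pH) (hU : h⁻¹ * c.pS h ∈ c.pU) :
    c.chiP (h⁻¹ * c.pS h) = 1 := by
  obtain ⟨k, hk, rfl⟩ := hh
  obtain ⟨j, hj, hje⟩ := hU
  rw [← hje, c.chiP_mk (c.grpU_le_grpJ hj)]
  rw [pS_mk, ← map_inv, ← map_mul] at hje
  obtain ⟨z, -, hz⟩ := exists_smul_of_mk_eq hje
  obtain ⟨A00, A01, -, A11⟩ := id hk
  obtain ⟨hj01, hja, hjd⟩ := c.inBox_entry (c.grpU_le_grpJ hj)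
  simp only [Matrix.sub_apply, Matrix.one_apply_eq] at A00 A11
  rw [Matrix.sub_apply, Matrix.one_apply_ne (by decide), sub_zero] at A01
  obtain ⟨hα, -, -⟩ := c.mem_boxAp.mp A00
  obtain ⟨hδ, -, -⟩ := c.mem_boxAp.mp A11
  set α := k.val 0 0 - 1
  set δ := k.val 1 1 - 1
  set γ := k.val 0 1
  have hγ : Small 0 γ := A01.1
  have hw := c.isBox_H.isWide hk
  have hi := c.inv_wide hw
  set η := k.val - 1
  set η' := k⁻¹.val - 1
  have hΔ : c.IsWide (η.map c.s - η) := (c.map_inBox (fun _ h => c.small_s h)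
    (fun _ h => c.small_s h) (fun _ h => c.small_s h) hw).sub hw
  have he : (k⁻¹ * c.sMap k).val - 1 = (η.map c.s - η) - η * (η.map c.s - η) -
      (η * η') * (η.map c.s - η) := by
    have e1 : (c.sMap k).val = 1 + η.map c.s := by rw [← sMap_sub_one, add_sub_cancel]
    have hid : (1 + η) * (1 + η') = 1 := by
      rw [add_sub_cancel, add_sub_cancel, ← Units.val_mul, mul_inv_cancel, Units.val_one]
    have hid' : (1 + η') * (1 + η) = 1 := by
      rw [add_sub_cancel, add_sub_cancel, ← Units.val_mul, inv_mul_cancel, Units.val_one]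
    have h3 : η' = -η - η * η' := by linear_combination (norm := noncomm_ring) hid
    rw [Units.val_mul, e1, show k⁻¹.val = 1 + η' from (add_sub_cancel _ _).symm,
      show (1 + η') * (1 + η.map c.s) - 1 =
        (1 + η') * (η.map c.s - η) + ((1 + η') * (1 + η) - 1) by noncomm_ring, hid', sub_self,
      add_zero]
    conv_lhs => rw [h3]
    noncomm_ring
  have hT := (hw.mul hi).isWide.mul hΔ
  obtain ⟨T00, -, -, T11⟩ := hT
  obtain ⟨P00, P01, -, P11⟩ := hw.mul hΔ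
  obtain ⟨Q00, Q01, ⟨_, -, -⟩, Q11⟩ := hw.mul hi
  obtain ⟨D00, D01, ⟨x, hx, D10⟩, D11⟩ := id hΔ
  simp only [mem_smallSub] at T00 T11 P00 P01 P11 Q00 Q01 D00 D01 hx D11
  have E : ∀ i i', ((k⁻¹ * c.sMap k).val - 1) i i' = (z * j.val i i' -
      (1 : M₂w) i i') := fun i i' => by
    rw [Matrix.sub_apply, hz, Matrix.smul_apply, smul_eq_mul]
  have hE : ∀ i i', z * j.val i i' - (1 : M₂w) i i' = (η.map c.s - η) i i' -
      (η * (η.map c.s - η)) i i' - (η * η' * (η.map c.s - η)) i i' := fun i i' => by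
    rw [← E, he]; rfl
  have hs : ∀ i i', (η.map c.s - η) i i' = c.s (η i i') - η i i' := fun _ _ => rfl
  have hη00 : η 0 0 = α := by simp [η, α]
  have hη11 : η 1 1 = δ := by simp [η, δ]
  have hη01 : η 0 1 = γ := by simp [η, γ]
  have r1 := c.e1_le
  have r2 := c.eA_le_e1
  have r3 := c.eH_add_e3
  set u := j.val 0 0 - 1
  have hu : Small c.eA u := c.small_boxA hja
  have hu1 : Valued.v (1 + u) = 1 := by
    refine (Valuation.map_eq_of_sub_lt _ ?_).trans (map_one Valued.v)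
    rw [map_one, add_sub_cancel_left]
    refine hu.trans_lt ?_
    rw [← exp_zero, exp_lt_exp]
    have := c.one_le_eH
    omega
  have hu0 : (1 : Lw) + u ≠ 0 := fun h => by rw [h, map_zero] at hu1; exact zero_ne_one hu1
  have hz0 : z - 1 = (z * j.val 0 0 - 1 - u) / (1 + u) := by
    rw [eq_div_iff hu0]; simp only [u]; ring
  have h00 := hE 0 0
  rw [Matrix.one_apply_eq] at h00
  have hzs : Small c.eH (z - 1) := by
    have h : Small c.eH (z * j.val 0 0 - 1 - u) := by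
      rw [h00]
      exact ((D00.sub (P00.anti (by omega))).sub (T00.anti (by omega))).sub (hu.anti (by omega))
    rw [hz0, Small, map_div₀, hu1, div_one]
    exact h
  have hz00 : (z - 1) - (c.s α - α) ∈ c.boxA := by
    have e : (z - 1) - (c.s α - α) = -u - (z - 1) * u - (η * (η.map c.s - η)) 0 0 -
        (η * η' * (η.map c.s - η)) 0 0 := by
      rw [← hη00]
      linear_combination h00 + hs 0 0
    rw [e]
    exact sub_mem (sub_mem (sub_mem (neg_mem hja) (c.small_e1_mem_boxA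
      (hzs.mul_le hu (by omega)))) (c.small_e1_mem_boxA P00)) (c.small_e1_mem_boxA T00)
  have h11 := hE 1 1
  rw [Matrix.one_apply_eq] at h11
  have hz11 : (z - 1) - (c.s δ - δ) ∈ c.boxA := by
    have e : (z - 1) - (c.s δ - δ) = -(j.val 1 1 - 1) - (z - 1) * (j.val 1 1 - 1) -
        (η * (η.map c.s - η)) 1 1 - (η * η' * (η.map c.s - η)) 1 1 := by
      rw [← hη11]
      linear_combination h11 + hs 1 1
    rw [e]
    exact sub_mem (sub_mem (sub_mem (neg_mem hjd) (c.small_e1_mem_boxA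
      (hzs.mul_le (c.small_boxA hjd) (by omega)))) (c.small_e1_mem_boxA P11))
      (c.small_e1_mem_boxA T11)
  have h01 := hE 0 1
  rw [Matrix.one_apply_ne (by decide), sub_zero, hs, hη01] at h01
  -- the upper entry modulo the modulus of the character
  set p := c.s γ - γ
  set q := c.s δ - δ
  have hp : Small 0 p := (c.small_s hγ).sub hγ
  have hq : Small c.eH q := (c.small_s hδ).sub hδ
  have hmain : Small c.e1 (j.val 0 1 - (p - α * p - γ * q - (z - 1) * p)) := by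
    have e1 : (η * (η.map c.s - η)) 0 1 = α * p + γ * q := by
      rw [Matrix.mul_apply, Fin.sum_univ_two, hs, hs, hη00, hη01, hη11]
    have e2 : (η * η' * (η.map c.s - η)) 0 1 =
        (η * η') 0 0 * p + (η * η') 0 1 * q := by
      rw [Matrix.mul_apply, Fin.sum_univ_two, hs, hs, hη01, hη11]
    rw [e1, e2] at h01
    set R := (η * η') 0 0 * p + (η * η') 0 1 * q
    have hR : Small c.e1 R := (Q00.mul_le hp (by omega)).add (Q01.mul_le hq (by omega))
    have hW : Small c.eH (α * p + γ * q + R) :=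
      ((hα.mul_le hp (by omega)).add (hγ.mul_le hq (by omega))).add (hR.anti (by omega))
    have hj0 : Small 0 (j.val 0 1) := hj01.1
    rw [show j.val 0 1 - (p - α * p - γ * q - (z - 1) * p) =
      (z - 1) * ((α * p + γ * q + R) + (z - 1) * j.val 0 1) - R by linear_combination (2 - z) * h01]
    exact (hzs.mul_le (hW.add (hzs.mul_le hj0 (by omega))) (by omega)).sub hR
  have hzs0 : Small 0 (z - 1) := hzs.anti (Nat.zero_le _)
  have hα0 : Small 0 α := hα.anti (Nat.zero_le _)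
  have hq0 : Small 0 q := hq.anti (Nat.zero_le _)
  rw [c.psi_congr (((hp.sub (hα0.mul hp)).sub (hγ.mul hq0)).sub (hzs0.mul hp)) hmain,
    c.psi_sub ((hp.sub (hα0.mul hp)).sub (hγ.mul hq0)) (hzs0.mul hp),
    c.psi_sub (hp.sub (hα0.mul hp)) (hγ.mul hq0), c.psi_sub hp (hα0.mul hp)]
  have t1 : c.psi p = 1 := by
    rw [c.psi_sub (c.small_s hγ) hγ, c.psi_gal _ hγ, mul_inv_cancel₀ (c.psi_ne_zero hγ)]
  set ζ := z - 1
  have t2 : c.psi (γ * q) = c.psi (ζ * γ) := by
    rw [show γ * q = ζ * γ - (ζ - q) * γ by ring,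
      c.psi_sub (hzs0.mul hγ) ((hzs0.sub hq0).mul hγ), hz11.2 _ A01, inv_one, mul_one]
  have t3 : c.psi (ζ * p) = c.psi (ζ * c.s γ) * (c.psi (ζ * γ))⁻¹ := by
    rw [mul_sub, c.psi_sub (hzs0.mul (c.small_s hγ)) (hzs0.mul hγ)]
  have t4 : c.psi (α * p) = (c.psi (ζ * c.s γ))⁻¹ := by
    have hsA := c.s_boxA (c.s_boxA hz00)
    have hAp : Small 0 (c.s (c.s α)) := c.small_s (c.small_s hα0)
    have hrw : c.psi (α * p) = c.psi ((c.s (c.s α) - α) * γ) := by
      rw [mul_sub, c.psi_sub (hα0.mul (c.small_s hγ)) (hα0.mul hγ), c.psi_mul_gal hα0 hγ,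
        sub_mul (c.s (c.s α)) α γ, c.psi_sub (hAp.mul hγ) (hα0.mul hγ)]
    have hz2 : Small 0 (c.s (c.s ζ)) := c.small_s (c.small_s hzs0)
    rw [hrw, show (c.s (c.s α) - α) * γ =
        -(c.s (c.s ζ) * γ) + c.s (c.s (ζ - (c.s α - α))) * γ by
      simp only [map_sub, c.s_three]; ring,
      c.psi_add _ _ (hz2.mul hγ).neg ((hsA.1).mul hγ), hsA.2 _ A01, mul_one,
      c.psi_neg (hz2.mul hγ), ← c.psi_mul_gal hzs0 hγ]
  rw [t1, t2, t3, t4, one_mul, inv_inv]
  field_simp [c.psi_ne_zero (hzs0.mul hγ), c.psi_ne_zero (hzs0.mul (c.small_s hγ))]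

/-- The parameters of the averaging. -/
def IsShift (ν : Lw) : Prop := ν ∈ c.boxAp ∧ ν - c.s ν ∈ c.boxA

open Classical in
/-- The upper entry of a representative in the group of the level. -/
def upperP (x : PGL(2, Lw)) : Lw :=
  if h : ∃ g ∈ c.grpJ, Pm g = x then h.choose.val 0 1 else 0

theorem psi_upperP {g : GLv w} (hg : g ∈ c.grpJ) {ν : Lw} (hν : Small c.eH ν) :
    c.psi (ν * c.upperP (Pm g)) = c.psi (ν * g.val 0 1) := by
  have h : ∃ g' ∈ c.grpJ, Pm g' = Pm g := ⟨g, hg, rfl⟩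
  rw [upperP, dif_pos h]
  obtain ⟨h1, h2⟩ := h.choose_spec
  obtain ⟨z, -, hz⟩ := exists_smul_of_mk_eq h2.symm
  have hzA := (c.scalar_mem c.isBox_J hg h1 hz).2
  have hb : Small 0 (g.val 0 1) := (c.inBox_entry hg).1.1
  refine c.psi_congr ((hν.anti (Nat.zero_le _)).mul hb) ?_
  rw [hz, Matrix.smul_apply, smul_eq_mul,
    show ν * (z * g.val 0 1) - ν * g.val 0 1 = ν * ((z - 1) * g.val 0 1) by ring]
  exact hν.mul_le (hzA.mul hb) (by have := c.e1_le; omega)

theorem exists_shift_elt {ν : Lw} (hν : c.IsShift ν) :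
    ∃ q ∈ c.grpH, q⁻¹ * c.sMap q ∈ c.grpU ∧ q.val = !![1, 0; 0, 1 + ν] := by
  obtain ⟨q, hq, hqv⟩ := Radii.exists_of_inBox c.isBox_H (X := !![0, 0; 0, ν])
    ⟨zero_mem _, zero_mem _, ⟨0, zero_mem _, by simp⟩, hν.1⟩
  have hqv' : q.val = !![1, 0; 0, 1 + ν] := by
    rw [hqv, Matrix.one_fin_two]; simp
  refine ⟨q, hq, ?_, hqv'⟩
  have hsmall := (c.mem_boxAp.mp hν.1).1
  have h1 : Valued.v (1 + ν) = 1 := by
    refine (Valuation.map_eq_of_sub_lt _ ?_).trans (map_one Valued.v)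
    rw [map_one, add_sub_cancel_left]
    refine hsmall.trans_lt ?_
    rw [← exp_zero, exp_lt_exp]
    have := c.one_le_eH
    omega
  have hne : (1 : Lw) + ν ≠ 0 := fun h => by rw [h, map_zero] at h1; exact zero_ne_one h1
  have hd : q.val.det = 1 + ν := by rw [hqv']; simp [Matrix.det_fin_two]
  have hs : (c.sMap q).val = !![1, 0; 0, 1 + c.s ν] := by
    show q.val.map c.s = _
    rw [hqv']
    refine Matrix.ext fun i j => ?_
    fin_cases i <;> fin_cases j <;> simp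
  have e : (q⁻¹ * c.sMap q).val - 1 = !![0, 0; 0, (c.s ν - ν) / (1 + ν)] := by
    rw [Units.val_mul, LT.CO.inv_val_fin_two, hd, hqv', hs]
    refine Matrix.ext fun i j => ?_
    fin_cases i <;> fin_cases j <;>
      simp <;> field_simp
    all_goals ring
  show c.InBox _ _ _ _
  rw [e]
  refine ⟨zero_mem _, zero_mem _, ⟨0, zero_mem _, by simp⟩, ?_⟩
  show (c.s ν - ν) / (1 + ν) ∈ c.boxA
  have hd' : c.s ν - ν ∈ c.boxA := by simpa using neg_mem hν.2
  rw [show (c.s ν - ν) / (1 + ν) = (c.s ν - ν) - (c.s ν - ν) * ν / (1 + ν) by field_simp; ring]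
  refine sub_mem hd' (c.small_e1_mem_boxA ?_)
  rw [Small, map_div₀, h1, div_one]
  exact (c.small_boxA hd').mul_le hsmall (by have := c.e1_le; have := c.eH_add_e3; omega)

/-- The effect of a shift. -/
theorem shift_mul {ν : Lw} (hν : c.IsShift ν) {q : GLv w} (hq : q ∈ c.grpH)
    (hqs : q⁻¹ * c.sMap q ∈ c.grpU) (hqv : q.val = !![1, 0; 0, 1 + ν]) {x : PGL(2, Lw)}
    (hx : x ∈ c.pJ) :
    (Pm q)⁻¹ * x * c.pS (Pm q) ∈ c.pJ ∧
      c.chiP ((Pm q)⁻¹ * x * c.pS (Pm q)) = c.chiP x * c.psi (ν * c.upperP x) ∧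
      ∀ μ : Lw, Small c.eH μ →
        c.psi (μ * c.upperP ((Pm q)⁻¹ * x * c.pS (Pm q))) = c.psi (μ * c.upperP x) := by
  obtain ⟨g, hg, rfl⟩ := hx
  have hsmall := (c.mem_boxAp.mp hν.1).1
  have hmem : q⁻¹ * g * c.sMap q ∈ c.grpJ := by
    have h := mul_mem (c.normal_grpJ (inv_mem hq) hg) (c.grpU_le_grpJ hqs)
    rwa [inv_inv, mul_assoc (q⁻¹ * g), ← mul_assoc q, mul_inv_cancel, one_mul] at h
  rw [pS_mk, ← map_inv, ← map_mul, ← map_mul]
  obtain ⟨hb, -, -⟩ := c.inBox_entry hg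
  have hb0 : Small 0 (g.val 0 1) := hb.1
  have h1 : q.val.det ≠ 0 := q.det_ne_zero
  have e : (q⁻¹ * g * c.sMap q).val 0 1 = g.val 0 1 + g.val 0 1 * c.s ν := by
    have hs : (c.sMap q).val = q.val.map c.s := rfl
    rw [Units.val_mul, Units.val_mul, LT.CO.inv_val_fin_two, hs, hqv]
    rw [hqv, Matrix.det_fin_two_of] at h1
    simp [Matrix.mul_apply, Fin.sum_univ_two, Matrix.det_fin_two, Matrix.vecMul, dotProduct]
    simp at h1
    field_simp
  refine ⟨⟨_, hmem, rfl⟩, ?_, fun μ hμ => ?_⟩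
  · have hν0 : Small 0 ν := hsmall.anti (Nat.zero_le _)
    rw [c.chiP_mk hmem, c.chiP_mk hg, c.psi_upperP hg hsmall, e,
      c.psi_add _ _ hb0 (hb0.mul (c.small_s hν0)),
      show g.val 0 1 * c.s ν = ν * g.val 0 1 - (ν - c.s ν) * g.val 0 1 by ring,
      c.psi_sub (hν0.mul hb0) (hν.2.1.mul hb0), hν.2.2 _ hb, inv_one, mul_one]
  · rw [c.psi_upperP hmem hμ, c.psi_upperP hg hμ]
    refine c.psi_congr ((hμ.anti (Nat.zero_le _)).mul hb0) ?_
    rw [e, mul_add, add_sub_cancel_left]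
    exact hμ.mul_le (hb0.mul_le (c.small_s hsmall) (k := c.eH) (by omega))
      (by have := c.e1_le; omega)

/-- The integral elements dual to `1 / 3` times the integers detect the denominator. -/
theorem exists_dual_ne {z : Lw} (h3 : Small 0 (3 * z)) (hz : ¬ Small 0 z) :
    ∃ ζ : Lw, Small (c.eA + c.e3) ζ ∧ (∀ o, Small 0 o → c.psi (ζ * o) = 1) ∧
      c.psi (ζ * z) ≠ 1 := by
  classical
  have hex : ∃ n : ℕ, ∃ ζ : Lw, (∀ o, Small 0 o → c.psi (ζ * o) = 1) ∧ Small 0 ζ ∧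
      Valued.v ζ = exp (-(n : ℤ)) :=
    ⟨c.e2, c.M, fun o ho => c.psi_small _ (c.small_M.mul_le ho (by have := c.e1_le_e2; omega)),
      c.small_M.anti (Nat.zero_le _), c.val_M⟩
  obtain ⟨ζ, hD, hζ0, hζv⟩ := Nat.find_spec hex
  set n := Nat.find hex
  have hn : Small (c.eA + c.e3) ζ := c.dual_small ζ hζ0 hD
  have hzne : Valued.v z ≠ 0 := fun h => hz (by rw [Small, h]; exact zero_le)
  set k := log (Valued.v z)
  have hzv : Valued.v z = exp k := (exp_log hzne).symm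
  have hk1 : 0 < k := by
    by_contra hk
    exact hz (by rw [Small, hzv, exp_le_exp]; simpa using not_lt.mp hk)
  have hk2 : k ≤ c.e3 := by
    rw [Small, map_mul, c.val_three, hzv, ← exp_add, exp_le_exp] at h3
    simp at h3
    omega
  have hnA : (c.eA + c.e3 : ℕ) ≤ n := by
    rw [Small, hζv, exp_le_exp] at hn
    omega
  have hy : Small 0 (ζ * z) := by
    rw [Small, map_mul, hζv, hzv, ← exp_add, exp_le_exp]
    simp; omega
  by_contra! hall
  have hyD : ∀ o, Small 0 o → c.psi (ζ * z * o) = 1 := fun o ho => by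
    rw [show ζ * z * o = ζ * o * z by ring]
    refine hall _ (hn.mul_le ho (by omega)) fun o' ho' => ?_
    rw [mul_assoc]
    exact hD _ ((ho.mul ho').anti (by omega))
  refine Nat.find_min hex (m := n - k.toNat) (by omega) ⟨ζ * z, hyD, hy, ?_⟩
  rw [map_mul, hζv, hzv, ← exp_add, exp_inj]
  omega

/-- Outside the deep group some shift changes the character. -/
theorem exists_shift_ne {x : PGL(2, Lw)} (hx : x ∈ c.pJ) (hU : x ∉ c.pU) :
    ∃ ν, c.IsShift ν ∧ Small c.eH ν ∧ c.psi (ν * c.upperP x) ≠ 1 := by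
  obtain ⟨g, hg, rfl⟩ := hx
  obtain ⟨hb, -, -⟩ := c.inBox_entry hg
  set b := g.val 0 1 with hbdef
  have hb₀ : b ∉ c.boxB₀ := fun h => hU ⟨g, by
    obtain ⟨a1, -, a3, a4⟩ := id hg
    refine ⟨a1, ?_, a3, a4⟩
    rwa [Matrix.sub_apply, Matrix.one_apply_ne (by decide), sub_zero], rfl⟩
  set z := (b - c.s (c.s b)) / 3
  have hb0 : Small 0 b := hb.1
  have h3z : Small 0 (3 * z) := by
    rw [mul_div_cancel₀ _ c.three_ne_zero]
    exact hb0.sub (c.small_s (c.small_s hb0))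
  have hz : ¬ Small 0 z := fun h => hb₀ ⟨hb, by
    show Small c.e3 (b - c.s (c.s b))
    have := c.small_three.mul h
    rwa [mul_div_cancel₀ _ c.three_ne_zero] at this⟩
  obtain ⟨ζ, hζ, hD, hne⟩ := c.exists_dual_ne h3z hz
  have hζA : ζ ∈ c.boxA := ⟨hζ.anti (Nat.zero_le _), fun b hb => hD b hb.1⟩
  set ν := (ζ - c.s ζ) / 3
  have hνs : Small c.eA ν := c.small_div_three (hζ.sub (c.small_s hζ)) le_rfl
  have hνH : Small c.eH ν := hνs.anti (by have := c.eH_add_e3; omega)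
  have htν : c.tr ν = 0 := by
    rw [show ν = (3 : Lw)⁻¹ * (ζ - c.s ζ) by rw [inv_mul_eq_div],
      c.tr_mul_fixed (by rw [map_inv₀, map_ofNat]), map_sub, c.tr_s, sub_self, mul_zero]
  have hν : c.IsShift ν := by
    refine ⟨c.mem_boxAp.mpr ⟨hνH, ?_, ?_⟩, ?_⟩
    · rw [mul_div_cancel₀ _ c.three_ne_zero]
      exact sub_mem hζA (c.s_boxA hζA)
    · rw [htν, zero_div]; exact zero_mem _
    · have e : ν - c.s ν = c.tr ζ / 3 - c.s ζ := by
        simp only [ν, tr_apply, map_div₀, map_sub, map_ofNat]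
        field_simp [c.three_ne_zero]
        ring
      rw [e]
      exact sub_mem (c.tr_boxA hζA) (c.s_boxA hζA)
  refine ⟨ν, hν, hνH, ?_⟩
  rw [c.psi_upperP hg hνH]
  have hζ3 : Small 0 (ζ * b / 3) :=
    c.small_div_three (hζ.mul hb0) (by omega)
  have hb'3 : Small 0 (ζ * c.s (c.s b) / 3) :=
    c.small_div_three (hζ.mul (c.small_s (c.small_s hb0))) (by omega)
  have hsb : Small 0 (c.s ζ * b / 3) :=
    c.small_div_three ((c.small_s hζ).mul hb0) (by omega)
  rw [show ν * b = ζ * b / 3 - c.s ζ * b / 3 by simp only [ν]; ring, c.psi_sub hζ3 hsb]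
  rw [show ζ * z = ζ * b / 3 - ζ * c.s (c.s b) / 3 by simp only [z]; ring,
    c.psi_sub hζ3 hb'3] at hne
  rwa [show c.psi (c.s ζ * b / 3) = c.psi (ζ * c.s (c.s b) / 3) by
    rw [← c.psi_gal _ hsb, ← c.psi_gal _ (c.small_s hsb)]
    congr 1
    rw [map_div₀, map_mul, map_div₀, map_mul, map_ofNat, map_ofNat, c.s_three]]

end LocChar

end FermatAgent.LTG.Fixed

end
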